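import Mathlib
import Fermat.Prelude.Def_GaloisRep_DeformationCondition

set_option autoImplicit false

noncomputable section

namespace FLTAgent.Deform

open scoped TensorProduct
open IsLocalRing

abbrev GQ : Type := AlgebraicClosure ℚ ≃ₐ[ℚ] AlgebraicClosure ℚ

abbrev Mt (A : Type*) := Matrix (Fin 2) (Fin 2) A

section RepMat

variable {A : Type} [CommRing A] {V : Type} [AddCommGroup V] [Module A V]

/-- `r` is the matrix of `ρ` in some basis. -/
def RepMat (ρ : GQ →* Module.End A V) (r : GQ → Mt A) : Prop :=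
  ∃ b : Module.Basis (Fin 2) A V, ∀ σ, LinearMap.toMatrix b b (ρ σ) = r σ

theorem RepMat.map_one {ρ : GQ →* Module.End A V} {r : GQ → Mt A} (h : RepMat ρ r) : r 1 = 1 := by
  obtain ⟨b, hb⟩ := h
  rw [← hb, _root_.map_one, LinearMap.toMatrix_one]

theorem RepMat.map_mul {ρ : GQ →* Module.End A V} {r : GQ → Mt A} (h : RepMat ρ r) (σ τ : GQ) :
    r (σ * τ) = r σ * r τ := by
  obtain ⟨b, hb⟩ := h
  rw [← hb, ← hb, ← hb, _root_.map_mul, ← LinearMap.toMatrix_mul]

theorem RepMat.baseChange {B : Type} [CommRing B] [Algebra A B] {ρ : GQ →* Module.End A V}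
    {r : GQ → Mt A} (h : RepMat ρ r) {ρ' : GQ →* Module.End B (B ⊗[A] V)}
    (hρ' : ∀ σ, ρ' σ = (ρ σ).baseChange B) :
    RepMat ρ' (fun σ => (r σ).map (algebraMap A B)) := by
  obtain ⟨b, hb⟩ := h
  refine ⟨Algebra.TensorProduct.basis B b, fun σ => ?_⟩
  rw [hρ', LinearMap.toMatrix_baseChange, hb]

theorem RepMat.linEquiv {W : Type} [AddCommGroup W] [Module A W] {ρ : GQ →* Module.End A V}
    {ρ' : GQ →* Module.End A W} {r : GQ → Mt A} (h : RepMat ρ r) (e : V ≃ₗ[A] W)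
    (he : ∀ σ x, e (ρ σ x) = ρ' σ (e x)) : RepMat ρ' r := by
  obtain ⟨b, hb⟩ := h
  refine ⟨b.map e, fun σ => ?_⟩
  rw [← hb]
  ext i j
  simp [LinearMap.toMatrix_apply, ← he]

theorem RepMat.exists_equiv {W : Type} [AddCommGroup W] [Module A W] {ρ : GQ →* Module.End A V}
    {ρ' : GQ →* Module.End A W} {r : GQ → Mt A} (h : RepMat ρ r) (h' : RepMat ρ' r) :
    ∃ e : V ≃ₗ[A] W, ∀ σ x, e (ρ σ x) = ρ' σ (e x) := by
  obtain ⟨b, hb⟩ := h
  obtain ⟨b', hb'⟩ := h'
  refine ⟨b.equiv b' (Equiv.refl _), fun σ x => ?_⟩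
  have : (b.equiv b' (Equiv.refl _)).toLinearMap ∘ₗ (ρ σ) =
      (ρ' σ) ∘ₗ (b.equiv b' (Equiv.refl _)).toLinearMap := by
    refine b.ext fun j => b'.repr.injective (Finsupp.ext fun i => ?_)
    have e1 := congrFun (congrFun ((hb σ).trans (hb' σ).symm) i) j
    simp only [LinearMap.toMatrix_apply] at e1
    have e2 : ∀ v, b'.repr (b.equiv b' (Equiv.refl _) v) i = b.repr v i := by
      intro v; simp [Module.Basis.equiv]
    simp only [LinearMap.coe_comp, Function.comp_apply, LinearEquiv.coe_coe, e2]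
    rw [e1]
    simp
  exact LinearMap.congr_fun this x

/-- two matrix forms of one representation are conjugate. -/
theorem RepMat.conjugate {ρ : GQ →* Module.End A V} {r r' : GQ → Mt A}
    (h : RepMat ρ r) (h' : RepMat ρ r') :
    ∃ P Q : Mt A, Q * P = 1 ∧ P * Q = 1 ∧ ∀ σ, r' σ = P * r σ * Q := by
  obtain ⟨b, hb⟩ := h
  obtain ⟨b', hb'⟩ := h'
  refine ⟨b'.toMatrix b, b.toMatrix b', ?_, ?_, fun σ => ?_⟩
  · rw [Module.Basis.toMatrix_mul_toMatrix, Module.Basis.toMatrix_self]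
  · rw [Module.Basis.toMatrix_mul_toMatrix, Module.Basis.toMatrix_self]
  · rw [← hb, ← hb']
    exact (basis_toMatrix_mul_linearMap_toMatrix_mul_basis_toMatrix b' b b' b (ρ σ)).symm

theorem RepMat.conj {ρ : GQ →* Module.End A V} {r : GQ → Mt A}
    (h : RepMat ρ r) {P Q : Mt A} (hQP : Q * P = 1) (hPQ : P * Q = 1) :
    RepMat ρ (fun σ => P * r σ * Q) := by
  obtain ⟨b, hb⟩ := h
  -- change the coordinates by `P`
  let e : (Fin 2 → A) ≃ₗ[A] (Fin 2 → A) :=
    LinearEquiv.ofLinear (Matrix.toLin' P) (Matrix.toLin' Q)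
      (by rw [← Matrix.toLin'_mul, hPQ, Matrix.toLin'_one])
      (by rw [← Matrix.toLin'_mul, hQP, Matrix.toLin'_one])
  let b' : Module.Basis (Fin 2) A V := Module.Basis.ofEquivFun (b.equivFun.trans e)
  have h1 : b'.toMatrix b = P := by
    ext i j
    simp [b', e, Module.Basis.toMatrix_apply, Matrix.mulVec, dotProduct, Finsupp.single_apply]
  have h2 : b.toMatrix b' = Q := by
    have := Module.Basis.toMatrix_mul_toMatrix b b' (⇑b)
    rw [h1, Module.Basis.toMatrix_self] at this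
    calc b.toMatrix ⇑b' = b.toMatrix ⇑b' * (P * Q) := by rw [hPQ, mul_one]
      _ = Q := by rw [← mul_assoc, this, one_mul]
  refine ⟨b', fun σ => ?_⟩
  simp only
  rw [← hb σ, ← h1, ← h2, basis_toMatrix_mul_linearMap_toMatrix_mul_basis_toMatrix]

/-- The representation attached to a monoid-hom matrix function. -/
def matEnd (r : GQ → Mt A) (h1 : r 1 = 1) (hmul : ∀ σ τ, r (σ * τ) = r σ * r τ) :
    GQ →* Module.End A (Fin 2 → A) where
  toFun σ := Matrix.toLin' (r σ)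
  map_one' := by rw [h1, Matrix.toLin'_one]; rfl
  map_mul' σ τ := by rw [hmul, Matrix.toLin'_mul]; rfl

theorem repMat_matEnd (r : GQ → Mt A) (h1 : r 1 = 1) (hmul : ∀ σ τ, r (σ * τ) = r σ * r τ) :
    RepMat (matEnd r h1 hmul) r :=
  ⟨Pi.basisFun A (Fin 2), fun σ => by
    rw [LinearMap.toMatrix_eq_toMatrix']; simp [matEnd]⟩

end RepMat

section Adic

variable {A : Type} [CommRing A] [IsLocalRing A]

theorem exists_repMat (ρ : GaloisRepAdic A) : ∃ r, RepMat ρ.ρ r := by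
  let b : Module.Basis (Fin 2) A ρ.V :=
    (Module.finBasis A ρ.V).reindex (finCongr ρ.finrank_eq)
  exact ⟨_, b, fun σ => rfl⟩

theorem IsEquiv.of_repMat {ρ ρ' : GaloisRepAdic A} {r : GQ → Mt A}
    (h : RepMat ρ.ρ r) (h' : RepMat ρ'.ρ r) : ρ.IsEquiv ρ' := by
  obtain ⟨e, he⟩ := h.exists_equiv h'
  exact ⟨⟨e, he⟩⟩

theorem RepMat.of_isEquiv {ρ ρ' : GaloisRepAdic A} {r : GQ → Mt A}
    (h : RepMat ρ.ρ r) (h' : ρ.IsEquiv ρ') : RepMat ρ'.ρ r := by
  obtain ⟨e⟩ := h'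
  exact h.linEquiv e.toLinearEquiv e.map_apply

theorem repMat_baseChangeAlong {B : Type} [CommRing B] [IsLocalRing B] (φ : A →+* B)
    (hφ : IsLocalHom φ) {ρ : GaloisRepAdic A} {r : GQ → Mt A} (h : RepMat ρ.ρ r) :
    RepMat (ρ.baseChangeAlong φ hφ).ρ (fun σ => (r σ).map φ) := by
  letI : Algebra A B := φ.toAlgebra
  exact RepMat.baseChange (B := B) h (ρ' := (ρ.baseChangeAlong φ hφ).ρ) (fun σ => rfl)

theorem repMat_residual {ρ : GaloisRepAdic A} {r : GQ → Mt A} (h : RepMat ρ.ρ r) :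
    RepMat ρ.residual.ρ (fun σ => (r σ).map (residue A)) :=
  RepMat.baseChange (B := ResidueField A) h (ρ' := ρ.residual.ρ) (fun σ => rfl)

theorem residual_isEquiv_of_repMat {k : Type} [Field k] {ρ ρ' : ResidualGaloisRep k}
    {r : GQ → Mt k} (h : RepMat ρ.ρ r) (h' : RepMat ρ'.ρ r) : ρ.IsEquiv ρ' := by
  obtain ⟨e, he⟩ := h.exists_equiv h'
  exact ⟨⟨e, he⟩⟩

theorem exists_repMat_residual {k : Type} [Field k] (ρ : ResidualGaloisRep k) :
    ∃ r, RepMat ρ.ρ r :=
  ⟨_, (Module.finBasis k ρ.V).reindex (finCongr ρ.finrank_eq), fun _ => rfl⟩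

theorem repMat_baseChange_residual {k k' : Type} [Field k] [Field k'] [Algebra k k']
    {ρ : ResidualGaloisRep k} {r : GQ → Mt k} (h : RepMat ρ.ρ r) :
    RepMat (ρ.baseChange k').ρ (fun σ => (r σ).map (algebraMap k k')) :=
  RepMat.baseChange (B := k') h (ρ' := (ρ.baseChange k').ρ) (fun σ => rfl)

theorem repMat_baseChangeAlong_residual {k k' : Type} [Field k] [Field k'] (φ : k →+* k')
    {ρ : ResidualGaloisRep k} {r : GQ → Mt k} (h : RepMat ρ.ρ r) :
    RepMat (ρ.baseChangeAlong φ).ρ (fun σ => (r σ).map φ) := by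
  letI : Algebra k k' := φ.toAlgebra
  exact repMat_baseChange_residual h

/-- adic continuity of a matrix function. -/
def MatCont (r : GQ → Mt A) : Prop :=
  ∀ n : ℕ, ∃ L : IntermediateField ℚ (AlgebraicClosure ℚ), FiniteDimensional ℚ L ∧
    ∀ σ : GQ, (∀ x ∈ L, σ x = x) → ∀ i j, r σ i j - (1 : Mt A) i j ∈ maximalIdeal A ^ n

theorem repMat_matCont {ρ : GaloisRepAdic A} {r : GQ → Mt A} (h : RepMat ρ.ρ r) : MatCont r := by
  intro n
  obtain ⟨b, hb⟩ := h
  obtain ⟨L, hL, h1⟩ := ρ.isAdicContinuous n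
  refine ⟨L, hL, fun σ hσ i j => ?_⟩
  have hcoord : ∀ x ∈ (maximalIdeal A ^ n) • (⊤ : Submodule A ρ.V),
      b.repr x i ∈ maximalIdeal A ^ n := by
    intro x hx
    refine Submodule.smul_induction_on hx (fun a ha w _ => ?_) (fun x y hx hy => ?_)
    · simpa using Ideal.mul_mem_right (b.repr w i) _ ha
    · simpa using Ideal.add_mem _ hx hy
  have := hcoord _ (h1 σ hσ (b j))
  rw [map_sub, Finsupp.sub_apply] at this
  rw [← hb, LinearMap.toMatrix_apply]
  convert this using 2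
  rw [b.repr_self, Finsupp.single_apply, Matrix.one_apply]
  simp [eq_comm]

/-- the Galois representation of a continuous matrix representation. -/
def ofMat (r : GQ → Mt A) (h1 : r 1 = 1) (hmul : ∀ σ τ, r (σ * τ) = r σ * r τ)
    (hc : MatCont r) : GaloisRepAdic A where
  V := Fin 2 → A
  finrank_eq := Module.finrank_fin_fun A
  ρ := matEnd r h1 hmul
  isAdicContinuous := by
    intro n
    obtain ⟨L, hL, h⟩ := hc n
    refine ⟨L, hL, fun σ hσ v => ?_⟩
    have hv : matEnd r h1 hmul σ v - v =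
        ∑ i : Fin 2, ((r σ - 1).mulVec v i) • (Pi.single i 1 : Fin 2 → A) := by
      funext l
      simp [matEnd, Matrix.sub_mulVec, Pi.single_apply]
    rw [hv]
    refine Submodule.sum_mem _ fun i _ => Submodule.smul_mem_smul ?_ Submodule.mem_top
    simp only [Matrix.mulVec, dotProduct]
    exact Ideal.sum_mem _ fun j _ => Ideal.mul_mem_right _ _ (h σ hσ i j)

theorem repMat_ofMat (r : GQ → Mt A) (h1 : r 1 = 1) (hmul : ∀ σ τ, r (σ * τ) = r σ * r τ)
    (hc : MatCont r) : RepMat (ofMat r h1 hmul hc).ρ r :=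
  repMat_matEnd r h1 hmul

/-- finite level. -/
def FinLevel (r : GQ → Mt A) : Prop :=
  ∃ L : IntermediateField ℚ (AlgebraicClosure ℚ), FiniteDimensional ℚ L ∧
    ∀ σ : GQ, (∀ x ∈ L, σ x = x) → r σ = 1

theorem FinLevel.matCont {r : GQ → Mt A} (h : FinLevel r) : MatCont r := by
  intro n
  obtain ⟨L, hL, h⟩ := h
  exact ⟨L, hL, fun σ hσ i j => by rw [h σ hσ, sub_self]; exact Ideal.zero_mem _⟩

theorem MatCont.finLevel [IsArtinianRing A] {r : GQ → Mt A} (h : MatCont r) : FinLevel r := by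
  obtain ⟨n, hn⟩ := (isArtinianRing_iff_isNilpotent_maximalIdeal A).mp inferInstance
  obtain ⟨L, hL, h⟩ := h n
  refine ⟨L, hL, fun σ hσ => ?_⟩
  ext i j
  have := h σ hσ i j
  rw [hn, Ideal.zero_eq_bot, Ideal.mem_bot, sub_eq_zero] at this
  exact this

end Adic

end FLTAgent.Deform
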