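import Fermat.Agent.Deform.Tangent

set_option autoImplicit false

noncomputable section

namespace FLTAgent.Deform

open IsLocalRing GaloisRep

/-- a bounded family of ideals closed under intersection has a least element -/
theorem exists_least {R : Type} [CommRing R] (P : Ideal R → Prop) (hne : ∃ I, P I)
    (hinf : ∀ I J, P I → P J → P (I ⊓ J)) (hfin : ∀ I, P I → Finite (R ⧸ I))
    (hb : ∃ C : ℕ, ∀ I, P I → Nat.card (R ⧸ I) ≤ C) :
    ∃ I₀, P I₀ ∧ ∀ I, P I → I₀ ≤ I := by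
  classical
  obtain ⟨C, hC⟩ := hb
  obtain ⟨I, hI⟩ := hne
  let T : Set ℕ := {n | ∃ I, P I ∧ Nat.card (R ⧸ I) = n}
  have hT : BddAbove T := ⟨C, by rintro n ⟨I, hI, rfl⟩; exact hC I hI⟩
  obtain ⟨I₀, h₀, hc⟩ := Nat.sSup_mem (s := T) ⟨_, I, hI, rfl⟩ hT
  refine ⟨I₀, h₀, fun J hJ => ?_⟩
  have hP := hinf I₀ J h₀ hJ
  haveI := hfin _ hP
  haveI := hfin _ h₀
  let f := Ideal.Quotient.factor (inf_le_left : I₀ ⊓ J ≤ I₀)
  have hs : Function.Surjective f := Ideal.Quotient.factor_surjective _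
  have hcard : Nat.card (R ⧸ I₀ ⊓ J) = Nat.card (R ⧸ I₀) :=
    le_antisymm (hc.symm ▸ le_csSup hT ⟨_, hP, rfl⟩) (Nat.card_le_card_of_surjective f hs)
  have hi : Function.Injective f := (Function.Surjective.bijective_of_nat_card_le hs hcard.le).1
  intro x hx
  have : Ideal.Quotient.mk (I₀ ⊓ J) x = 0 := hi (by
    rw [map_zero]; exact Ideal.Quotient.eq_zero_iff_mem.mpr hx)
  exact (Ideal.Quotient.eq_zero_iff_mem.mp this).2

variable {𝒪 : Type} [CommRing 𝒪] [IsLocalRing 𝒪] [IsNoetherianRing 𝒪]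
  {ρbar : ResidualGaloisRep (ResidueField 𝒪)}
  {𝒟 : ∀ ⦃A : Type⦄ [CommRing A] [IsLocalRing A] [Algebra 𝒪 A], GaloisRepAdic A → Prop}
  [Finite (ResidueField 𝒪)]

variable (𝒟) in
/-- chosen elements generating the cotangent spaces of all `OK` quotients -/
def GenSpec (fr : Frame ρbar) {r : ℕ} (t : Fin r → Fr 𝒪) : Prop :=
  (∀ k, t k ∈ ptIdeal fr) ∧
    ∀ I, OK 𝒟 fr I → ptIdeal fr ≤ Ideal.span (Set.range t) ⊔ I ⊔ ptIdeal fr ^ 2

theorem exists_gens (h𝒟 : IsDeformationCondition 𝒪 𝒟)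
    (hbar : 𝒟 (GaloisRepAdic.ofResidualGaloisRep ρbar)) (hfin : TangentFinite 𝒪 ρbar 𝒟)
    (fr : Frame ρbar) : ∃ (r : ℕ) (t : Fin r → Fr 𝒪), GenSpec 𝒟 fr t := by
  classical
  set M := ptIdeal fr
  set W := (maximalIdeal 𝒪).map (algebraMap 𝒪 (Fr 𝒪))
  have hWM : W ≤ M := Ideal.map_le_iff_le_comap.mpr fun a ha => by
    change algebraMap 𝒪 (Fr 𝒪) a ∈ ptIdeal fr
    rw [ptIdeal, RingHom.mem_ker, AlgHom.commutes]
    exact (residue_eq_zero_iff a).mpr ha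
  obtain ⟨C, hC⟩ := exists_tangent_bound h𝒟 hfin fr
  obtain ⟨J₁, ⟨hJ₁, hJ₁sq, hJ₁W⟩, hJ₁min⟩ :=
    exists_least (fun J => OK 𝒟 fr J ∧ M ^ 2 ≤ J ∧ W ≤ J)
      ⟨M, ok_ptIdeal h𝒟 fr hbar, Ideal.pow_le_self two_ne_zero, hWM⟩
      (fun I J hI hJ => ⟨hI.1.inf h𝒟 hJ.1, le_inf hI.2.1 hJ.2.1, le_inf hI.2.2 hJ.2.2⟩)
      (fun I hI => hI.1.1) ⟨C, fun I hI => hC I hI.1 hI.2.1 hI.2.2⟩
  haveI := hJ₁.1
  obtain ⟨g, hg⟩ := IsNoetherian.noetherian (maximalIdeal 𝒪)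
  choose lift hlift using fun z : Fr 𝒪 ⧸ J₁ => Ideal.Quotient.mk_surjective z
  haveI : Fintype (Fr 𝒪 ⧸ J₁) := Fintype.ofFinite _
  let S : Finset (Fr 𝒪) := ((Finset.univ.image lift).filter (· ∈ M)) ∪ g.image (algebraMap 𝒪 (Fr 𝒪))
  refine ⟨S.card, fun k => (S.equivFin.symm k : Fr 𝒪), fun k => ?_, fun I hI => ?_⟩
  · have hk := (S.equivFin.symm k).2
    rcases Finset.mem_union.mp hk with h | h
    · exact (Finset.mem_filter.mp h).2
    · obtain ⟨a, ha, hae⟩ := Finset.mem_image.mp h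
      simp only
      rw [← hae]
      exact hWM (Ideal.mem_map_of_mem _ (hg ▸ Ideal.subset_span ha))
  · have hrange : Set.range (fun k => (S.equivFin.symm k : Fr 𝒪)) = (S : Set (Fr 𝒪)) := by
      ext x
      constructor
      · rintro ⟨k, rfl⟩; exact (S.equivFin.symm k).2
      · intro hx; exact ⟨S.equivFin ⟨x, hx⟩, by simp⟩
    rw [hrange]
    have hW : W ≤ Ideal.span (S : Set (Fr 𝒪)) := by
      refine Ideal.map_le_iff_le_comap.mpr (hg ▸ Ideal.span_le.mpr fun a ha => ?_)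
      exact Ideal.subset_span (Finset.mem_union_right _ (Finset.mem_image_of_mem _ ha))
    have hJ : OK 𝒟 fr (I ⊔ M ^ 2 ⊔ W) := hI.mono h𝒟 (le_sup_left.trans le_sup_left)
      (sup_le (sup_le hI.2.1 (Ideal.pow_le_self two_ne_zero)) hWM)
    have hmin := hJ₁min _ ⟨hJ, le_sup_right.trans le_sup_left, le_sup_right⟩
    intro x hx
    have hl : x - lift (Ideal.Quotient.mk J₁ x) ∈ J₁ := Ideal.Quotient.eq.mp (hlift _).symm
    have hlM : lift (Ideal.Quotient.mk J₁ x) ∈ M := by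
      have := M.sub_mem hx (hJ₁.2.1 hl); simpa using this
    have hlS : lift (Ideal.Quotient.mk J₁ x) ∈ Ideal.span (S : Set (Fr 𝒪)) :=
      Ideal.subset_span (Finset.mem_union_left _ (Finset.mem_filter.mpr
        ⟨Finset.mem_image_of_mem _ (Finset.mem_univ _), hlM⟩))
    have hle : I ⊔ M ^ 2 ⊔ W ≤ Ideal.span (S : Set (Fr 𝒪)) ⊔ I ⊔ M ^ 2 :=
      sup_le (sup_le (le_sup_right.trans le_sup_left) le_sup_right)
        (hW.trans (le_sup_left.trans le_sup_left))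
    have := Ideal.add_mem _ (Ideal.mem_sup_left (Ideal.mem_sup_left hlS) :
      _ ∈ Ideal.span (S : Set (Fr 𝒪)) ⊔ I ⊔ M ^ 2) (hle (hmin hl))
    simpa using this

section quotient

variable {fr : Frame ρbar} {r : ℕ} {t : Fin r → Fr 𝒪} {I : Ideal (Fr 𝒪)}

theorem map_span_eq (ht : GenSpec 𝒟 fr t) (hI : OK 𝒟 fr I) :
    (ptIdeal fr).map (Ideal.Quotient.mk I) =
      Ideal.span (Set.range fun k => Ideal.Quotient.mk I (t k)) := by
  set m := (ptIdeal fr).map (Ideal.Quotient.mk I) with hm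
  set a := Ideal.span (Set.range fun k => Ideal.Quotient.mk I (t k)) with ha
  have hamap : (Ideal.span (Set.range t)).map (Ideal.Quotient.mk I) = a := by
    rw [Ideal.map_span, ← Set.range_comp]; rfl
  have h1 : m ≤ a ⊔ m ^ 2 := by
    have := Ideal.map_mono (f := Ideal.Quotient.mk I) (ht.2 I hI)
    rwa [Ideal.map_sup, Ideal.map_sup, Ideal.map_quotient_self, sup_bot_eq, hamap,
      Ideal.map_pow] at this
  obtain ⟨n, hn⟩ := hI.2.2.1
  have h2 : ∀ i, m ≤ a ⊔ m ^ (i + 1) := by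
    intro i
    induction i with
    | zero => simp
    | succ i ih =>
      calc m ≤ a ⊔ m ^ 2 := h1
        _ = a ⊔ m * m := by rw [sq]
        _ ≤ a ⊔ m * (a ⊔ m ^ (i + 1)) := sup_le_sup_left (Ideal.mul_mono_right ih) _
        _ ≤ a ⊔ m ^ (i + 1 + 1) := by
          rw [Ideal.mul_sup]
          exact sup_le le_sup_left (sup_le (Ideal.mul_le_right.trans le_sup_left)
            ((pow_succ' m (i + 1)).ge.trans le_sup_right))
  refine le_antisymm ((h2 n).trans (sup_le le_rfl ?_)) (Ideal.span_le.mpr ?_)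
  · refine (Ideal.pow_le_pow_right n.le_succ).trans ?_
    rw [hm, ← Ideal.map_pow]
    exact (Ideal.map_mono hn).trans (by rw [Ideal.map_quotient_self]; exact bot_le)
  · rintro _ ⟨k, rfl⟩
    exact Ideal.mem_map_of_mem _ (ht.1 k)

/-- the point `t` in a quotient -/
def evT (t : Fin r → Fr 𝒪) (I : Ideal (Fr 𝒪)) : MvPolynomial (Fin r) 𝒪 →ₐ[𝒪] Fr 𝒪 ⧸ I :=
  MvPolynomial.aeval fun k => Ideal.Quotient.mk I (t k)

theorem evT_surjective (ht : GenSpec 𝒟 fr t) (hI : OK 𝒟 fr I) :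
    Function.Surjective (evT t I) := by
  classical
  set a := Ideal.span (Set.range fun k => Ideal.Quotient.mk I (t k)) with ha
  have key : ∀ i : ℕ, ∀ x : Fr 𝒪 ⧸ I, ∃ q, x - evT t I q ∈ a ^ i := by
    intro i
    induction i with
    | zero => intro x; exact ⟨0, by simp⟩
    | succ i ih =>
      intro x
      obtain ⟨x, rfl⟩ := Ideal.Quotient.mk_surjective x
      obtain ⟨c, hc⟩ := exists_const_sub_mem fr x
      have h : Ideal.Quotient.mk I (x - algebraMap 𝒪 _ c) ∈ a :=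
        (map_span_eq ht hI).le (Ideal.mem_map_of_mem _ hc)
      obtain ⟨y, hy⟩ := Ideal.mem_span_range_iff_exists_fun.mp h
      choose q hq using fun k => ih (y k)
      refine ⟨algebraMap 𝒪 _ c + ∑ k, q k * MvPolynomial.X k, ?_⟩
      have : Ideal.Quotient.mk I x - evT t I (algebraMap 𝒪 _ c + ∑ k, q k * MvPolynomial.X k) =
          ∑ k, (y k - evT t I (q k)) * Ideal.Quotient.mk I (t k) := by
        rw [map_add, AlgHom.commutes, ← sub_sub, map_sum]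
        have e : Ideal.Quotient.mk I x - algebraMap 𝒪 (Fr 𝒪 ⧸ I) c =
            ∑ k, y k * Ideal.Quotient.mk I (t k) := by
          rw [hy, map_sub]; rfl
        rw [e, ← Finset.sum_sub_distrib]
        refine Finset.sum_congr rfl fun k _ => ?_
        rw [map_mul, sub_mul]
        simp [evT]
      rw [this]
      refine (pow_succ a i).ge ?_
      exact Ideal.sum_mem _ fun k _ => Ideal.mul_mem_mul (hq k) (Ideal.subset_span ⟨k, rfl⟩)
  obtain ⟨n, hn⟩ := hI.2.2.1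
  intro x
  obtain ⟨q, hq⟩ := key n x
  refine ⟨q, ?_⟩
  rw [ha, ← map_span_eq ht hI, ← Ideal.map_pow] at hq
  have h0 : (ptIdeal fr ^ n).map (Ideal.Quotient.mk I) = ⊥ :=
    le_bot_iff.mp ((Ideal.map_mono hn).trans (by rw [Ideal.map_quotient_self]))
  rw [h0, Ideal.mem_bot, sub_eq_zero] at hq
  exact hq.symm

omit [IsNoetherianRing 𝒪] [Finite (ResidueField 𝒪)] in
theorem evT_mem (ht : GenSpec 𝒟 fr t) (hle : I ≤ ptIdeal fr) (x : MvPolynomial (Fin r) 𝒪) :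
    x ∈ MvPolynomial.idealOfVars (Fin r) 𝒪 →
      evT t I x ∈ (ptIdeal fr).map (Ideal.Quotient.mk I) := by
  intro hx
  rw [MvPolynomial.idealOfVars] at hx
  refine (Ideal.span_le.mpr ?_ : _ ≤ ((ptIdeal fr).map (Ideal.Quotient.mk I)).comap (evT t I)) hx
  rintro _ ⟨k, rfl⟩
  simp only [SetLike.mem_coe, Ideal.mem_comap, evT, MvPolynomial.aeval_X]
  exact Ideal.mem_map_of_mem _ (ht.1 k)

theorem exists_card_bound (ht : GenSpec 𝒟 fr t) (n : ℕ) :
    ∃ C : ℕ, ∀ I, OK 𝒟 fr I → ptIdeal fr ^ n ≤ I → Nat.card (Fr 𝒪 ⧸ I) ≤ C := by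
  let P := MvPolynomial (Fin r) 𝒪
  let J : Ideal P := MvPolynomial.idealOfVars (Fin r) 𝒪 ⊔ (maximalIdeal 𝒪).map (algebraMap 𝒪 P)
  have hs : Function.Surjective (fun a : 𝒪 => Ideal.Quotient.mk J (algebraMap 𝒪 P a)) := by
    intro x
    obtain ⟨p, rfl⟩ := Ideal.Quotient.mk_surjective x
    refine ⟨p.coeff 0, Ideal.Quotient.eq.mpr (Ideal.mem_sup_left ?_)⟩
    have : algebraMap 𝒪 P (p.coeff 0) - p ∈ MvPolynomial.idealOfVars (Fin r) 𝒪 ^ 1 := by
      rw [MvPolynomial.mem_pow_idealOfVars_iff']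
      intro x hx
      rw [Nat.lt_one_iff, Finsupp.degree_eq_zero_iff] at hx
      subst hx
      show MvPolynomial.coeff 0 (MvPolynomial.C (p.coeff 0) - p) = 0
      rw [MvPolynomial.coeff_sub, MvPolynomial.coeff_C, if_pos rfl, sub_self]
    rw [pow_one] at this
    exact this
  haveI : Finite (P ⧸ J) := by
    let f : ResidueField 𝒪 → P ⧸ J := Ideal.Quotient.lift (maximalIdeal 𝒪)
      ((Ideal.Quotient.mk J).comp (algebraMap 𝒪 P))
      (fun a ha => Ideal.Quotient.eq_zero_iff_mem.mpr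
        (Ideal.mem_sup_right (Ideal.mem_map_of_mem _ ha)))
    exact Finite.of_surjective f fun x => by
      obtain ⟨a, ha⟩ := hs x; exact ⟨residue 𝒪 a, ha⟩
  haveI := Ideal.finite_quotient_pow (IsNoetherian.noetherian J) n
  refine ⟨Nat.card (P ⧸ J ^ n), fun I hI hn => ?_⟩
  have hle := hI.2.1
  have hJ : J.map (evT t I) ≤ (ptIdeal fr).map (Ideal.Quotient.mk I) := by
    refine Ideal.map_le_iff_le_comap.mpr (sup_le (fun x hx => evT_mem ht hle x hx) ?_)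
    refine Ideal.map_le_iff_le_comap.mpr fun a ha => ?_
    rw [Ideal.mem_comap, Ideal.mem_comap, AlgHom.commutes]
    refine Ideal.mem_map_of_mem (Ideal.Quotient.mk I) (x := algebraMap 𝒪 (Fr 𝒪) a) ?_
    rw [ptIdeal, RingHom.mem_ker, AlgHom.commutes]
    exact (residue_eq_zero_iff a).mpr ha
  have hk : ∀ x ∈ J ^ n, evT t I x = 0 := fun x hx => by
    have h := (Ideal.map_pow (evT t I) J n) ▸ Ideal.mem_map_of_mem (evT t I) hx
    have h' := Ideal.pow_right_mono hJ n h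
    rw [← Ideal.map_pow] at h'
    have h0 : (ptIdeal fr ^ n).map (Ideal.Quotient.mk I) = ⊥ :=
      le_bot_iff.mp ((Ideal.map_mono hn).trans (by rw [Ideal.map_quotient_self]))
    rwa [h0, Ideal.mem_bot] at h'
  exact Nat.card_le_card_of_surjective (Ideal.Quotient.liftₐ (J ^ n) (evT t I) hk)
    (fun y => by
      obtain ⟨x, rfl⟩ := evT_surjective ht hI y
      exact ⟨Ideal.Quotient.mk _ x, rfl⟩)

theorem exists_In (h𝒟 : IsDeformationCondition 𝒪 𝒟)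
    (hbar : 𝒟 (GaloisRepAdic.ofResidualGaloisRep ρbar)) (ht : GenSpec 𝒟 fr t) (n : ℕ) :
    ∃ I, OK 𝒟 fr I ∧ ptIdeal fr ^ (n + 1) ≤ I ∧
      ∀ J, OK 𝒟 fr J → ptIdeal fr ^ (n + 1) ≤ J → I ≤ J := by
  obtain ⟨C, hC⟩ := exists_card_bound ht (n + 1)
  obtain ⟨I, ⟨h1, h2⟩, h3⟩ := exists_least (fun J => OK 𝒟 fr J ∧ ptIdeal fr ^ (n + 1) ≤ J)
    ⟨ptIdeal fr, ok_ptIdeal h𝒟 fr hbar, Ideal.pow_le_self n.succ_ne_zero⟩
    (fun I J hI hJ => ⟨hI.1.inf h𝒟 hJ.1, le_inf hI.2 hJ.2⟩) (fun I hI => hI.1.1)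
    ⟨C, fun I hI => hC I hI.1 hI.2⟩
  exact ⟨I, h1, h2, fun J hJ hJ' => h3 J ⟨hJ, hJ'⟩⟩

end quotient

end FLTAgent.Deform
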