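import Fermat.Agent.Deform.Norm

set_option autoImplicit false

noncomputable section

namespace FLTAgent.Deform

open IsLocalRing GaloisRep

variable {𝒪 : Type} [CommRing 𝒪] [IsLocalRing 𝒪]
  {ρbar : ResidualGaloisRep (ResidueField 𝒪)}
  {𝒟 : ∀ ⦃A : Type⦄ [CommRing A] [IsLocalRing A] [Algebra 𝒪 A], GaloisRepAdic A → Prop}

/-- the polynomial algebra on all matrix entries -/
abbrev Fr (𝒪 : Type) [CommRing 𝒪] : Type := MvPolynomial (GQ × Fin 2 × Fin 2) 𝒪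

/-- evaluation at a matrix function -/
def ev {A : Type} [CommRing A] [Algebra 𝒪 A] (r : GQ → Mt A) : Fr 𝒪 →ₐ[𝒪] A :=
  MvPolynomial.aeval fun p => r p.1 p.2.1 p.2.2

/-- the tautological matrices modulo an ideal -/
def taut (I : Ideal (Fr 𝒪)) (σ : GQ) : Mt (Fr 𝒪 ⧸ I) :=
  Matrix.of fun i j => Ideal.Quotient.mk I (MvPolynomial.X (σ, i, j))

theorem map_taut {A : Type} [CommRing A] [Algebra 𝒪 A] (r : GQ → Mt A) {I : Ideal (Fr 𝒪)}
    (φ : Fr 𝒪 ⧸ I →ₐ[𝒪] A) (h : φ.comp (Ideal.Quotient.mkₐ 𝒪 I) = ev r) :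
    (fun σ => (taut I σ).map φ) = r := by
  funext σ; ext i j
  have := AlgHom.congr_fun h (MvPolynomial.X (σ, i, j))
  simpa [ev, taut] using this

theorem comp_mk_eq_ev {A : Type} [CommRing A] [Algebra 𝒪 A] {I : Ideal (Fr 𝒪)}
    (φ : Fr 𝒪 ⧸ I →ₐ[𝒪] A) :
    φ.comp (Ideal.Quotient.mkₐ 𝒪 I) = ev (fun σ => (taut I σ).map φ) := by
  refine MvPolynomial.algHom_ext fun p => ?_
  simp [ev, taut]

theorem algHom_taut_ext {A : Type} [CommRing A] [Algebra 𝒪 A] {I : Ideal (Fr 𝒪)}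
    {φ ψ : Fr 𝒪 ⧸ I →ₐ[𝒪] A} (h : ∀ σ, (taut I σ).map φ = (taut I σ).map ψ) : φ = ψ := by
  refine AlgHom.ext fun x => ?_
  obtain ⟨x, rfl⟩ := Ideal.Quotient.mk_surjective x
  have e := (comp_mk_eq_ev φ).trans ((congrArg ev (funext h)).trans (comp_mk_eq_ev ψ).symm)
  exact AlgHom.congr_fun e x

/-- the ideal of the residual point -/
def ptIdeal (fr : Frame ρbar) : Ideal (Fr 𝒪) :=
  RingHom.ker (ev (A := ResidueField 𝒪) fun σ => (fr.c σ).map (residue 𝒪))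

theorem ev_pt_surjective (fr : Frame ρbar) :
    Function.Surjective (ev (𝒪 := 𝒪) (A := ResidueField 𝒪) fun σ => (fr.c σ).map (residue 𝒪)) := fun x => by
  obtain ⟨a, rfl⟩ := residue_surjective x
  exact ⟨algebraMap 𝒪 _ a, AlgHom.commutes _ a⟩

instance ptIdeal_isMaximal (fr : Frame ρbar) : (ptIdeal fr).IsMaximal :=
  RingHom.ker_isMaximal_of_surjective _ (ev_pt_surjective fr)

theorem exists_const_sub_mem (fr : Frame ρbar) (x : Fr 𝒪) :
    ∃ a : 𝒪, x - algebraMap 𝒪 _ a ∈ ptIdeal fr := by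
  obtain ⟨a, ha⟩ := residue_surjective (ev (A := ResidueField 𝒪)
    (fun σ => (fr.c σ).map (residue 𝒪)) x)
  refine ⟨a, ?_⟩
  rw [ptIdeal, RingHom.mem_ker, map_sub, sub_eq_zero, AlgHom.commutes]
  exact ha.symm

section Test

variable {A : Type} [CommRing A] [IsLocalRing A] [Algebra 𝒪 A] [IsLocalHom (algebraMap 𝒪 A)]
  {fr : Frame ρbar} {r : GQ → Mt A}

theorem mem_maximalIdeal_ev_iff (h : Resid fr r) (x : Fr 𝒪) :
    ev r x ∈ maximalIdeal A ↔ x ∈ ptIdeal fr := by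
  have e : (residue A).comp ((ev r : Fr 𝒪 →ₐ[𝒪] A) : Fr 𝒪 →+* A) =
      (ResidueField.map (algebraMap 𝒪 A)).comp
        ((ev (A := ResidueField 𝒪) fun σ => (fr.c σ).map (residue 𝒪) : Fr 𝒪 →ₐ[𝒪] ResidueField 𝒪) :
          Fr 𝒪 →+* ResidueField 𝒪) := by
    refine MvPolynomial.ringHom_ext (fun a => ?_) (fun p => ?_)
    · simp [ev, ResidueField.map_residue]
    · have := congrFun (congrFun (h p.1) p.2.1) p.2.2
      simpa [ev, ResidueField.map_residue] using this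
  rw [← residue_eq_zero_iff, ptIdeal, RingHom.mem_ker]
  have := RingHom.congr_fun e x
  simp only [RingHom.comp_apply, RingHom.coe_coe] at this
  rw [this, map_eq_zero]

omit [IsLocalHom (algebraMap 𝒪 A)] in
theorem Resid.map {B : Type} [CommRing B] [IsLocalRing B] [Algebra 𝒪 B] (h : Resid fr r)
    (φ : A →ₐ[𝒪] B) (hφ : IsLocalHom (φ : A →+* B)) : Resid fr (fun σ => (r σ).map φ) := by
  intro σ
  ext i j
  have := congrArg (ResidueField.map (φ : A →+* B)) (congrFun (congrFun (h σ) i) j)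
  simpa [ResidueField.map_residue] using this

omit [IsLocalRing A] [IsLocalHom (algebraMap 𝒪 A)] in
theorem Normalised.map {B : Type} [CommRing B] [Algebra 𝒪 B] (h : Normalised fr r)
    (φ : A →ₐ[𝒪] B) : Normalised fr (fun σ => (r σ).map φ) := by
  obtain ⟨h1, h2, h3⟩ := h
  simp [Normalised, comb_map, h1, h2, h3]

omit [IsLocalRing A] [IsLocalHom (algebraMap 𝒪 A)] in
theorem Normalised.of_injective {B : Type} [CommRing B] [Algebra 𝒪 B] (φ : A →ₐ[𝒪] B)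
    (hφ : Function.Injective φ) (h : Normalised fr (fun σ => (r σ).map φ)) : Normalised fr r := by
  obtain ⟨h1, h2, h3⟩ := h
  simp only [comb_map, Matrix.map_apply] at h1 h2 h3
  exact ⟨hφ (by simpa using h1), hφ (by simpa using h2), hφ (by simpa using h3)⟩

theorem isTest_residueField : IsArtinianTestAlgebra 𝒪 (ResidueField 𝒪) := by
  refine ⟨⟨fun a ha => (residue_ne_zero_iff_isUnit a).mp fun h0 => ha.ne_zero h0⟩, fun x => ?_,
    inferInstance⟩
  obtain ⟨y, rfl⟩ := residue_surjective x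
  obtain ⟨a, rfl⟩ := residue_surjective y
  exact ⟨a, rfl⟩

omit [IsLocalHom (algebraMap 𝒪 A)] in
/-- an algebra map is local as soon as the target residue field is that of `𝒪`. -/
theorem isLocalHom_of_residue_surjective {B : Type} [CommRing B] [IsLocalRing B] [Algebra 𝒪 B]
    (hB : Function.Surjective (residue B ∘ algebraMap 𝒪 B)) (φ : A →ₐ[𝒪] B) :
    IsLocalHom (φ : A →+* B) := by
  have hs : Function.Surjective ((residue B).comp (φ : A →+* B)) := fun x => by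
    obtain ⟨a, ha⟩ := hB x
    exact ⟨algebraMap 𝒪 A a, by simpa using ha⟩
  have hmax := IsLocalRing.eq_maximalIdeal (RingHom.ker_isMaximal_of_surjective _ hs)
  refine ⟨fun a ha => ?_⟩
  by_contra hu
  have : a ∈ RingHom.ker ((residue B).comp (φ : A →+* B)) := hmax ▸ hu
  rw [RingHom.mem_ker, RingHom.comp_apply, residue_eq_zero_iff] at this
  exact this ha

theorem finite_of_isTest [Finite (ResidueField 𝒪)] (hA : IsArtinianTestAlgebra 𝒪 A) :
    Finite A := by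
  haveI := hA.isArtinian
  have : Finite (ResidueField A) := Finite.of_surjective
    (ResidueField.map (algebraMap 𝒪 A)) fun x => by
      obtain ⟨a, ha⟩ := hA.residue_surjective x
      exact ⟨residue 𝒪 a, by rw [ResidueField.map_residue]; exact ha⟩
  obtain ⟨n, hn⟩ := (isArtinianRing_iff_isNilpotent_maximalIdeal A).mp inferInstance
  have : Finite (A ⧸ (⊥ : Ideal A)) :=
    finite_quotient_iff.mpr ⟨n, by rw [hn, Ideal.zero_eq_bot]⟩
  exact Finite.of_equiv _ (RingEquiv.quotientBot A).toEquiv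

end Test

theorem D_of_repMat (h𝒟 : IsDeformationCondition 𝒪 𝒟) {A : Type} [CommRing A] [IsLocalRing A]
    [Algebra 𝒪 A] (hA : IsArtinianTestAlgebra 𝒪 A) {ρ ρ' : GaloisRepAdic A} {r : GQ → Mt A}
    (h : RepMat ρ.ρ r) (h' : RepMat ρ'.ρ r) (hD : 𝒟 ρ) : 𝒟 ρ' :=
  h𝒟.of_isEquiv hA (IsEquiv.of_repMat h h') hD

variable (𝒟) in
/-- `r` is a normalised lift of type `𝒟`. -/
def Good {A : Type} [CommRing A] [IsLocalRing A] [Algebra 𝒪 A] (fr : Frame ρbar)
    (r : GQ → Mt A) : Prop :=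
  Resid fr r ∧ Normalised fr r ∧ ∃ ρ : GaloisRepAdic A, RepMat ρ.ρ r ∧ 𝒟 ρ

theorem Good.map (h𝒟 : IsDeformationCondition 𝒪 𝒟) {A B : Type} [CommRing A] [IsLocalRing A]
    [Algebra 𝒪 A] [CommRing B] [IsLocalRing B] [Algebra 𝒪 B] (hA : IsArtinianTestAlgebra 𝒪 A)
    (hB : IsArtinianTestAlgebra 𝒪 B) {fr : Frame ρbar} {r : GQ → Mt A} (h : Good 𝒟 fr r)
    (φ : A →ₐ[𝒪] B) : Good 𝒟 fr (fun σ => (r σ).map φ) := by
  haveI := hA.isLocalHom
  obtain ⟨h1, h2, ρ, hρ, hD⟩ := h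
  have hφ := isLocalHom_of_residue_surjective hB.residue_surjective φ
  exact ⟨h1.map φ hφ, h2.map φ, _, repMat_baseChangeAlong _ hφ hρ,
    h𝒟.baseChangeAlong hA hB φ hφ hD⟩

theorem isLocalRing_quot (fr : Frame ρbar) {I : Ideal (Fr 𝒪)} (hle : I ≤ ptIdeal fr) {n : ℕ}
    (hn : ptIdeal fr ^ n ≤ I) : IsLocalRing (Fr 𝒪 ⧸ I) := by
  have : Nontrivial (Fr 𝒪 ⧸ I) := Ideal.Quotient.nontrivial_iff.mpr fun h =>
    (ptIdeal_isMaximal fr).ne_top (top_le_iff.mp (h ▸ hle))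
  have key : ∀ P : Ideal (Fr 𝒪 ⧸ I), P.IsMaximal →
      P = (ptIdeal fr).map (Ideal.Quotient.mk I) := by
    intro P hP
    have hQ : (P.comap (Ideal.Quotient.mk I)).IsMaximal :=
      Ideal.comap_isMaximal_of_surjective _ Ideal.Quotient.mk_surjective
    have hI : I ≤ P.comap (Ideal.Quotient.mk I) := fun x hx => by
      rw [Ideal.mem_comap, Ideal.Quotient.eq_zero_iff_mem.mpr hx]; exact P.zero_mem
    have hM : ptIdeal fr ≤ P.comap (Ideal.Quotient.mk I) :=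
      hQ.isPrime.le_of_pow_le (hn.trans hI)
    rw [(ptIdeal_isMaximal fr).eq_of_le hQ.ne_top hM,
      Ideal.map_comap_of_surjective _ Ideal.Quotient.mk_surjective]
  obtain ⟨P, hP⟩ := Ideal.exists_maximal (Fr 𝒪 ⧸ I)
  exact IsLocalRing.of_unique_max_ideal ⟨P, hP, fun Q hQ => (key Q hQ).trans (key P hP).symm⟩

variable (𝒟) in
/-- ideals cutting out normalised lifts of type `𝒟` over finite rings. -/
def OK (fr : Frame ρbar) (I : Ideal (Fr 𝒪)) : Prop :=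
  Finite (Fr 𝒪 ⧸ I) ∧ I ≤ ptIdeal fr ∧ (∃ n, ptIdeal fr ^ n ≤ I) ∧ Normalised fr (taut I) ∧
    ∃ h : IsLocalRing (Fr 𝒪 ⧸ I),
      haveI := h; ∃ ρ : GaloisRepAdic (Fr 𝒪 ⧸ I), RepMat ρ.ρ (taut I) ∧ 𝒟 ρ

section OKfacts

variable {fr : Frame ρbar} {I : Ideal (Fr 𝒪)}

theorem maximalIdeal_quot [IsLocalRing (Fr 𝒪 ⧸ I)] (hle : I ≤ ptIdeal fr) :
    maximalIdeal (Fr 𝒪 ⧸ I) = (ptIdeal fr).map (Ideal.Quotient.mk I) := by
  refine (IsLocalRing.eq_maximalIdeal ?_).symm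
  refine (Ideal.map_eq_top_or_isMaximal_of_surjective _ Ideal.Quotient.mk_surjective
    (ptIdeal_isMaximal fr)).resolve_left fun h => (ptIdeal_isMaximal fr).ne_top ?_
  have := congrArg (Ideal.comap (Ideal.Quotient.mk I)) h
  rwa [Ideal.comap_map_of_surjective _ Ideal.Quotient.mk_surjective, Ideal.comap_top,
    ← RingHom.ker_eq_comap_bot, Ideal.mk_ker, sup_eq_left.mpr hle] at this

theorem mk_mem_maximalIdeal_iff [IsLocalRing (Fr 𝒪 ⧸ I)] (hle : I ≤ ptIdeal fr) (x : Fr 𝒪) :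
    Ideal.Quotient.mk I x ∈ maximalIdeal (Fr 𝒪 ⧸ I) ↔ x ∈ ptIdeal fr := by
  rw [maximalIdeal_quot hle, Ideal.mem_quotient_iff_mem hle]

theorem isTest_quot [IsLocalRing (Fr 𝒪 ⧸ I)] [Finite (Fr 𝒪 ⧸ I)] (hle : I ≤ ptIdeal fr) :
    IsArtinianTestAlgebra 𝒪 (Fr 𝒪 ⧸ I) := by
  refine ⟨⟨fun a ha => ?_⟩, fun x => ?_, inferInstance⟩
  · by_contra hu
    have : algebraMap 𝒪 (Fr 𝒪) a ∈ ptIdeal fr := by
      rw [ptIdeal, RingHom.mem_ker, AlgHom.commutes]
      exact (residue_eq_zero_iff a).mpr hu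
    exact ((mk_mem_maximalIdeal_iff hle _).mpr this) ha
  · obtain ⟨y, rfl⟩ := residue_surjective x
    obtain ⟨y, rfl⟩ := Ideal.Quotient.mk_surjective y
    obtain ⟨a, ha⟩ := exists_const_sub_mem fr y
    refine ⟨a, ?_⟩
    have h := (residue_eq_zero_iff _).mpr ((mk_mem_maximalIdeal_iff hle _).mpr ha)
    rw [map_sub, map_sub, sub_eq_zero] at h
    exact h.symm

theorem resid_taut [IsLocalRing (Fr 𝒪 ⧸ I)] (hle : I ≤ ptIdeal fr) : Resid fr (taut I) := by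
  intro σ; ext i j
  have : MvPolynomial.X (σ, i, j) - algebraMap 𝒪 (Fr 𝒪) (fr.c σ i j) ∈ ptIdeal fr := by
    rw [ptIdeal, RingHom.mem_ker, map_sub, AlgHom.commutes]
    simp [ev]
  have h := (residue_eq_zero_iff _).mpr ((mk_mem_maximalIdeal_iff hle _).mpr this)
  rw [map_sub, map_sub, sub_eq_zero] at h
  simp only [taut, Matrix.map_apply, Matrix.of_apply, Function.comp_apply]
  exact h

theorem good_taut [IsLocalRing (Fr 𝒪 ⧸ I)] (h : OK 𝒟 fr I) : Good 𝒟 fr (taut I) := by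
  obtain ⟨h1, h2, h3, h4, h5, h6⟩ := h
  exact ⟨resid_taut h2, h4, h6⟩

variable [Finite (ResidueField 𝒪)] (h𝒟 : IsDeformationCondition 𝒪 𝒟)

include h𝒟 in
/-- every good lift over a test algebra gives an `OK` ideal. -/
theorem ok_ker {A : Type} [CommRing A] [IsLocalRing A] [Algebra 𝒪 A]
    (hA : IsArtinianTestAlgebra 𝒪 A) {r : GQ → Mt A} (h : Good 𝒟 fr r) :
    OK 𝒟 fr (RingHom.ker (ev (𝒪 := 𝒪) r)) := by
  haveI := hA.isLocalHom
  haveI := finite_of_isTest hA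
  haveI := hA.isArtinian
  obtain ⟨hres, hnorm, ρ, hρ, hD⟩ := h
  set J := RingHom.ker (ev (𝒪 := 𝒪) r) with hJ
  let φ : Fr 𝒪 ⧸ J →ₐ[𝒪] A := Ideal.kerLiftAlg (ev r)
  have hφ : Function.Injective φ := Ideal.kerLiftAlg_injective _
  have hle : J ≤ ptIdeal fr := fun x hx => (mem_maximalIdeal_ev_iff hres x).mp
    ((RingHom.mem_ker.mp hx).symm ▸ Ideal.zero_mem _)
  obtain ⟨n, hn⟩ := (isArtinianRing_iff_isNilpotent_maximalIdeal A).mp inferInstance
  have hpow : ptIdeal fr ^ n ≤ J := by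
    intro x hx
    have hh : (ptIdeal fr).map (ev (𝒪 := 𝒪) r) ≤ maximalIdeal A := Ideal.map_le_iff_le_comap.mpr
      fun y hy => (mem_maximalIdeal_ev_iff hres y).mpr hy
    have h2 := Ideal.pow_right_mono hh n
    rw [← Ideal.map_pow] at h2
    have h3 := h2 (Ideal.mem_map_of_mem _ hx)
    rwa [hn, Ideal.zero_eq_bot, Ideal.mem_bot] at h3
  haveI hfin : Finite (Fr 𝒪 ⧸ J) := Finite.of_injective φ hφ
  haveI hloc := isLocalRing_quot fr hle hpow
  have hmap : (fun σ => (taut J σ).map φ) = r := map_taut r φ (AlgHom.ext fun x => rfl)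
  have hn' : Normalised fr (taut J) := Normalised.of_injective φ hφ (by rw [hmap]; exact hnorm)
  have hinj : Function.Injective (fun M : Mt (Fr 𝒪 ⧸ J) => M.map φ) := Matrix.map_injective hφ
  have h1 : taut J 1 = 1 := hinj (by
    simp only; rw [congrFun hmap 1, hρ.map_one, Matrix.map_one φ (map_zero _) (map_one _)])
  have hmul : ∀ σ τ, taut J (σ * τ) = taut J σ * taut J τ := fun σ τ => hinj (by
    simp only; rw [congrFun hmap (σ * τ), hρ.map_mul, ← congrFun hmap σ, ← congrFun hmap τ,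
      Matrix.map_mul])
  have hfl : FinLevel (taut J) := by
    obtain ⟨L, hL, hLr⟩ := (repMat_matCont hρ).finLevel
    refine ⟨L, hL, fun σ hσ => hinj ?_⟩
    simp only
    rw [congrFun hmap σ, hLr σ hσ, Matrix.map_one φ (map_zero _) (map_one _)]
  let ρ₀ := ofMat (taut J) h1 hmul hfl.matCont
  have hlocal := isLocalHom_of_residue_surjective hA.residue_surjective φ
  refine ⟨hfin, hle, ⟨n, hpow⟩, hn', hloc, ρ₀, repMat_ofMat _ _ _ _, ?_⟩
  refine h𝒟.of_baseChangeAlong_injective (isTest_quot hle) hA φ hlocal hφ ?_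
  refine D_of_repMat h𝒟 hA hρ ?_ hD
  rw [← hmap]
  exact repMat_baseChangeAlong _ hlocal (repMat_ofMat _ _ _ _)

include h𝒟 in
theorem OK.mono (h : OK 𝒟 fr I) {J : Ideal (Fr 𝒪)} (hIJ : I ≤ J) (hJ : J ≤ ptIdeal fr) :
    OK 𝒟 fr J := by
  obtain ⟨hfin, hle, ⟨n, hn⟩, hnorm, hloc, hρ⟩ := h
  haveI : Finite (Fr 𝒪 ⧸ J) := Finite.of_surjective _ (Ideal.Quotient.factor_surjective hIJ)
  haveI := isLocalRing_quot fr hJ (hn.trans hIJ)
  have hg : Good 𝒟 fr (taut I) := ⟨resid_taut hle, hnorm, hρ⟩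
  have := ok_ker h𝒟 (isTest_quot hJ)
    (hg.map h𝒟 (isTest_quot hle) (isTest_quot hJ) (Ideal.Quotient.factorₐ 𝒪 hIJ))
  rw [← comp_mk_eq_ev] at this
  convert this using 1
  rw [show (Ideal.Quotient.factorₐ 𝒪 hIJ).comp (Ideal.Quotient.mkₐ 𝒪 I) =
      Ideal.Quotient.mkₐ 𝒪 J from AlgHom.ext fun x => rfl]
  exact (Ideal.Quotient.mkₐ_ker 𝒪 J).symm

include h𝒟 in
theorem OK.inf (h : OK 𝒟 fr I) {J : Ideal (Fr 𝒪)} (hJ : OK 𝒟 fr J) : OK 𝒟 fr (I ⊓ J) := by
  have hIJ : OK 𝒟 fr (I ⊔ J) := h.mono h𝒟 le_sup_left (sup_le h.2.1 hJ.2.1)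
  obtain ⟨hfI, hleI, ⟨n, hn⟩, hnI, hlI, ρI, hρI, hDI⟩ := h
  obtain ⟨hfJ, hleJ, ⟨m, hm⟩, hnJ, hlJ, ρJ, hρJ, hDJ⟩ := hJ
  obtain ⟨hfC, hleC, -, -, hlC, -⟩ := hIJ
  set K := I ⊓ J with hK
  let pA : Fr 𝒪 ⧸ K →ₐ[𝒪] Fr 𝒪 ⧸ I := Ideal.Quotient.factorₐ 𝒪 inf_le_left
  let pB : Fr 𝒪 ⧸ K →ₐ[𝒪] Fr 𝒪 ⧸ J := Ideal.Quotient.factorₐ 𝒪 inf_le_right
  have hinj : Function.Injective (fun x => (pA x, pB x)) := by
    intro x y hxy
    obtain ⟨x, rfl⟩ := Ideal.Quotient.mk_surjective x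
    obtain ⟨y, rfl⟩ := Ideal.Quotient.mk_surjective y
    obtain ⟨e1, e2⟩ := Prod.mk.injEq .. ▸ hxy
    exact Ideal.Quotient.eq.mpr ⟨Ideal.Quotient.eq.mp e1, Ideal.Quotient.eq.mp e2⟩
  haveI hfK : Finite (Fr 𝒪 ⧸ K) := Finite.of_injective _ hinj
  have hleK : K ≤ ptIdeal fr := inf_le_left.trans hleI
  have hpow : ptIdeal fr ^ (n + m) ≤ K :=
    le_inf ((Ideal.pow_le_pow_right (by omega)).trans hn) ((Ideal.pow_le_pow_right (by omega)).trans hm)
  haveI hlK := isLocalRing_quot fr hleK hpow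
  have ext2 : ∀ {M N : Mt (Fr 𝒪 ⧸ K)}, M.map pA = N.map pA → M.map pB = N.map pB → M = N := by
    intro M N e1 e2
    ext i j
    exact hinj (Prod.ext (congrFun (congrFun e1 i) j) (congrFun (congrFun e2 i) j))
  have mA : (fun σ => (taut K σ).map pA) = taut I := funext fun σ => by
    ext i j; simp [taut, pA]
  have mB : (fun σ => (taut K σ).map pB) = taut J := funext fun σ => by
    ext i j; simp [taut, pB]
  have h1 : taut K 1 = 1 := ext2
    (by rw [congrFun mA 1, hρI.map_one, Matrix.map_one pA (map_zero _) (map_one _)])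
    (by rw [congrFun mB 1, hρJ.map_one, Matrix.map_one pB (map_zero _) (map_one _)])
  have hmul : ∀ σ τ, taut K (σ * τ) = taut K σ * taut K τ := fun σ τ => ext2
    (by rw [congrFun mA (σ * τ), hρI.map_mul, ← congrFun mA σ, ← congrFun mA τ, Matrix.map_mul])
    (by rw [congrFun mB (σ * τ), hρJ.map_mul, ← congrFun mB σ, ← congrFun mB τ, Matrix.map_mul])
  have hfl : FinLevel (taut K) := by
    obtain ⟨L, hL, hLr⟩ := (repMat_matCont hρI).finLevel
    obtain ⟨L', hL', hLr'⟩ := (repMat_matCont hρJ).finLevel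
    refine ⟨L ⊔ L', inferInstance, fun σ hσ => ext2 ?_ ?_⟩
    · rw [congrFun mA σ, hLr σ fun x hx => hσ x (le_sup_left (a := L) hx),
        Matrix.map_one pA (map_zero _) (map_one _)]
    · rw [congrFun mB σ, hLr' σ fun x hx => hσ x (le_sup_right (a := L) hx),
        Matrix.map_one pB (map_zero _) (map_one _)]
  have hnK : Normalised fr (taut K) := by
    obtain ⟨a1, a2, a3⟩ := (mA.symm ▸ hnI : Normalised fr (fun σ => (taut K σ).map pA))
    obtain ⟨b1, b2, b3⟩ := (mB.symm ▸ hnJ : Normalised fr (fun σ => (taut K σ).map pB))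
    simp only [comb_map, Matrix.map_apply] at a1 a2 a3 b1 b2 b3
    exact ⟨hinj (Prod.ext (by simpa using a1) (by simpa using b1)),
      hinj (Prod.ext (by simpa using a2) (by simpa using b2)),
      hinj (Prod.ext (by simpa using a3) (by simpa using b3))⟩
  refine ⟨hfK, hleK, ⟨_, hpow⟩, hnK, hlK, ofMat _ h1 hmul hfl.matCont, repMat_ofMat _ _ _ _, ?_⟩
  have tK := isTest_quot (fr := fr) hleK
  have tI := isTest_quot (fr := fr) hleI
  have tJ := isTest_quot (fr := fr) hleJ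
  have tC := isTest_quot (fr := fr) hleC
  have hpA := isLocalHom_of_residue_surjective tI.residue_surjective pA
  have hpB := isLocalHom_of_residue_surjective tJ.residue_surjective pB
  refine h𝒟.of_fibreProduct tI tJ tC tK (Ideal.Quotient.factorₐ 𝒪 le_sup_left)
    (Ideal.Quotient.factorₐ 𝒪 le_sup_right) pA pB hpA hpB ?_ hinj ?_ ?_ ?_
  · exact algHom_taut_ext fun σ => by ext i j; simp [taut, pA, pB]
  · intro a b hab
    obtain ⟨a, rfl⟩ := Ideal.Quotient.mk_surjective a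
    obtain ⟨b, rfl⟩ := Ideal.Quotient.mk_surjective b
    obtain ⟨i, hi, j, hj, hij⟩ := Submodule.mem_sup.mp (Ideal.Quotient.eq.mp hab)
    refine ⟨Ideal.Quotient.mk K (a - i), Ideal.Quotient.eq.mpr (by simpa using hi),
      Ideal.Quotient.eq.mpr ?_⟩
    rw [show a - i - b = j by linear_combination -hij]
    exact hj
  · refine D_of_repMat h𝒟 tI hρI ?_ hDI
    rw [← mA]; exact repMat_baseChangeAlong _ hpA (repMat_ofMat _ _ _ _)
  · refine D_of_repMat h𝒟 tJ hρJ ?_ hDJ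
    rw [← mB]; exact repMat_baseChangeAlong _ hpB (repMat_ofMat _ _ _ _)

include h𝒟 in
theorem ok_ptIdeal (fr : Frame ρbar) (hbar : 𝒟 (GaloisRepAdic.ofResidualGaloisRep ρbar)) :
    OK 𝒟 fr (ptIdeal fr) := by
  haveI := (isTest_residueField (𝒪 := 𝒪)).isLocalHom
  refine ok_ker h𝒟 isTest_residueField ⟨fun σ => ?_, ?_, _, fr.rep, hbar⟩
  · ext i j; simp [← ResidueField.algebraMap_eq]
  · have e : ∀ a, comb a (fun σ => (fr.c σ).map (residue 𝒪)) = (comb a fr.c).map (residue 𝒪) :=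
      fun a => by
        have := comb_map (Algebra.ofId 𝒪 (ResidueField 𝒪)) a fr.c
        exact this
    refine ⟨?_, ?_, ?_⟩ <;> rw [e]
    · rw [fr.ha]; simp
    · rw [fr.ha]; simp
    · rw [fr.hb]; simp

end OKfacts

end FLTAgent.Deform
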