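import Fermat.Agent.Deform.Span

set_option autoImplicit false

noncomputable section

namespace FLTAgent.Deform

open IsLocalRing

variable {𝒪 : Type} [CommRing 𝒪]

/-- a linear combination of the values of a matrix function. -/
def comb {A : Type} [CommRing A] [Algebra 𝒪 A] (a : GQ →₀ 𝒪) (r : GQ → Mt A) : Mt A :=
  a.sum fun σ x => x • r σ

theorem comb_map {A B : Type} [CommRing A] [Algebra 𝒪 A] [CommRing B] [Algebra 𝒪 B]
    (φ : A →ₐ[𝒪] B) (a : GQ →₀ 𝒪) (r : GQ → Mt A) :
    comb a (fun σ => (r σ).map φ) = (comb a r).map φ := by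
  ext i j
  simp [comb, Finsupp.sum, Matrix.sum_apply, Matrix.map_apply, map_sum]

theorem comb_conj {A : Type} [CommRing A] [Algebra 𝒪 A] (a : GQ →₀ 𝒪) (P Q : Mt A)
    (r : GQ → Mt A) : comb a (fun σ => P * r σ * Q) = P * comb a r * Q := by
  simp [comb, Finsupp.sum, Finset.mul_sum, Finset.sum_mul]

variable [IsLocalRing 𝒪] (ρbar : ResidualGaloisRep (ResidueField 𝒪))

/-- A choice of coordinates for `ρbar` with combinations giving two matrix units. -/
structure Frame where
  c : GQ → Mt 𝒪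
  a : GQ →₀ 𝒪
  b : GQ →₀ 𝒪
  rep : RepMat ρbar.ρ (fun σ => (c σ).map (residue 𝒪))
  ha : (comb a c).map (residue 𝒪) = Matrix.single 0 0 1
  hb : (comb b c).map (residue 𝒪) = Matrix.single 0 1 1

variable {ρbar}

theorem exists_frame (habs : ρbar.IsAbsolutelyIrreducible) : Nonempty (Frame ρbar) := by
  classical
  obtain ⟨r, hr⟩ := exists_repMat_residual ρbar
  choose c hc using fun σ i j => residue_surjective (r σ i j)
  have hcr : ∀ σ, (Matrix.of (c σ)).map (residue 𝒪) = r σ := fun σ => by ext i j; simp [hc]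
  have htop := span_range_eq_top ρbar habs hr
  have key : ∀ M : Mt (ResidueField 𝒪), ∃ a : GQ →₀ 𝒪,
      (comb a (fun σ => Matrix.of (c σ))).map (residue 𝒪) = M := by
    intro M
    obtain ⟨l, hl⟩ := Finsupp.mem_span_range_iff_exists_finsupp.mp
      (show M ∈ Submodule.span (ResidueField 𝒪) (Set.range r) from htop ▸ Submodule.mem_top)
    choose s hs using fun σ => residue_surjective (l σ)
    refine ⟨∑ σ ∈ l.support, Finsupp.single σ (s σ), ?_⟩
    have : comb (∑ σ ∈ l.support, Finsupp.single σ (s σ)) (fun σ => Matrix.of (c σ)) =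
        ∑ σ ∈ l.support, s σ • Matrix.of (c σ) := by
      rw [comb]
      erw [← Finsupp.sum_finsetSum_index (h := fun σ x => x • Matrix.of (c σ))
        (fun _ => zero_smul _ _) (fun _ _ _ => add_smul _ _ _)]
      exact Finset.sum_congr rfl fun σ _ => Finsupp.sum_single_index (zero_smul _ _)
    rw [this, ← hl]
    ext i j
    simp [Finsupp.sum, Matrix.sum_apply, map_sum, hc, hs]
  obtain ⟨a, ha⟩ := key (Matrix.single 0 0 1)
  obtain ⟨b, hb⟩ := key (Matrix.single 0 1 1)
  exact ⟨⟨fun σ => Matrix.of (c σ), a, b, by simpa only [hcr] using hr, ha, hb⟩⟩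

variable {A : Type} [CommRing A] [IsLocalRing A] [Algebra 𝒪 A] [IsLocalHom (algebraMap 𝒪 A)]

/-- `r` reduces to the chosen coordinates of `ρbar`. -/
def Resid (fr : Frame ρbar) (r : GQ → Mt A) : Prop :=
  ∀ σ, (r σ).map (residue A) = (fr.c σ).map (residue A ∘ algebraMap 𝒪 A)

/-- the normal form. -/
def Normalised (fr : Frame ρbar) (r : GQ → Mt A) : Prop :=
  comb fr.a r 0 1 = 0 ∧ comb fr.a r 1 0 = 0 ∧ comb fr.b r 0 1 = 1

theorem comb_residue {fr : Frame ρbar} {r : GQ → Mt A} (h : Resid fr r) (a : GQ →₀ 𝒪) :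
    (comb a r).map (residue A) =
      ((comb a fr.c).map (residue 𝒪)).map (ResidueField.map (algebraMap 𝒪 A)) := by
  ext i j
  have h' : ∀ σ i j, residue A (r σ i j) = residue A (algebraMap 𝒪 A (fr.c σ i j)) :=
    fun σ i j => congrFun (congrFun (h σ) i) j
  simp only [comb, Finsupp.sum, Matrix.map_apply, Matrix.sum_apply, Matrix.smul_apply, map_sum]
  simp [Algebra.smul_def, h', ResidueField.map_residue]

theorem comb_a_residue {fr : Frame ρbar} {r : GQ → Mt A} (h : Resid fr r) :
    (comb fr.a r).map (residue A) = Matrix.single 0 0 1 := by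
  rw [comb_residue h, fr.ha]; ext i j; simp [Matrix.single_apply, apply_ite (ResidueField.map _)]

theorem comb_b_residue {fr : Frame ρbar} {r : GQ → Mt A} (h : Resid fr r) :
    (comb fr.b r).map (residue A) = Matrix.single 0 1 1 := by
  rw [comb_residue h, fr.hb]; ext i j; simp [Matrix.single_apply, apply_ite (ResidueField.map _)]

/-- uniqueness of the normal form in a conjugacy class. -/
theorem normalised_unique {fr : Frame ρbar} {r r' : GQ → Mt A} (h : Resid fr r) (h' : Resid fr r')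
    (hn : Normalised fr r) (hn' : Normalised fr r') {P Q : Mt A} (hQP : Q * P = 1)
    (hPQ : P * Q = 1) (hr : ∀ σ, r' σ = P * r σ * Q) : r' = r := by
  have e : ∀ a : GQ →₀ 𝒪, comb a r' * P = P * comb a r := fun a => by
    rw [show r' = fun σ => P * r σ * Q from funext hr, comb_conj, mul_assoc, hQP, mul_one]
  obtain ⟨hX01, hX10, hY⟩ := hn
  obtain ⟨hX01', hX10', hY'⟩ := hn'
  have ea := e fr.a
  have eb := e fr.b
  have r1 := comb_a_residue h
  have r2 := comb_a_residue h'
  have e00 : residue A (comb fr.a r 0 0) = 1 := by simpa using congrFun (congrFun r1 0) 0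
  have e11 : residue A (comb fr.a r 1 1) = 0 := by simpa using congrFun (congrFun r1 1) 1
  have e00' : residue A (comb fr.a r' 0 0) = 1 := by simpa using congrFun (congrFun r2 0) 0
  have e11' : residue A (comb fr.a r' 1 1) = 0 := by simpa using congrFun (congrFun r2 1) 1
  have u1 : IsUnit (comb fr.a r' 0 0 - comb fr.a r 1 1) :=
    (residue_ne_zero_iff_isUnit _).mp (by rw [map_sub, e00', e11]; simp)
  have u2 : IsUnit (comb fr.a r 0 0 - comb fr.a r' 1 1) :=
    (residue_ne_zero_iff_isUnit _).mp (by rw [map_sub, e00, e11']; simp)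
  have p01 := congrFun (congrFun ea 0) 1
  have p10 := congrFun (congrFun ea 1) 0
  simp only [Matrix.mul_apply, Fin.sum_univ_two, hX01, hX10, hX01', hX10', zero_mul, mul_zero,
    add_zero, zero_add] at p01 p10
  have P01 : P 0 1 = 0 := u1.mul_right_eq_zero.mp (by linear_combination p01)
  have P10 : P 1 0 = 0 := u2.mul_right_eq_zero.mp (by linear_combination -p10)
  have pd := congrFun (congrFun eb 0) 1
  simp only [Matrix.mul_apply, Fin.sum_univ_two, P01, hY, hY', mul_zero,
    zero_mul, one_mul, mul_one, add_zero, zero_add] at pd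
  have hP : P = P 0 0 • (1 : Mt A) := by
    ext i j; fin_cases i <;> fin_cases j <;> simp [P01, P10, pd]
  funext σ
  have h1 : P * r σ = r σ * P := by
    rw [hP, Matrix.smul_mul, Matrix.mul_smul, one_mul, mul_one]
  rw [hr, h1, mul_assoc, hPQ, mul_one]

theorem Resid.conj {fr : Frame ρbar} {r : GQ → Mt A} (h : Resid fr r) {P Q : Mt A}
    (hPQ : P * Q = 1) (hP : P.map (residue A) = 1) :
    Resid fr (fun σ => P * r σ * Q) := by
  intro σ
  have hQ : Q.map (residue A) = 1 := by
    have := congrArg (fun M : Mt A => M.map (residue A)) hPQ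
    simpa [Matrix.map_mul, hP] using this
  simp [Matrix.map_mul, hP, hQ, h σ]

/-- a root, congruent to zero, of a quadratic with unit linear term -/
theorem exists_small_root [HenselianRing A (maximalIdeal A)] {B E C₀ : A}
    (hB : B ∈ maximalIdeal A) (hE : IsUnit E) (hC : C₀ ∈ maximalIdeal A) :
    ∃ t ∈ maximalIdeal A, B * t ^ 2 + E * t + C₀ = 0 := by
  obtain ⟨Ei, hEi⟩ := hE.exists_left_inv
  obtain ⟨δ, hδ⟩ : ∃ δ, δ = B * C₀ * Ei * Ei := ⟨_, rfl⟩
  have hδm : δ ∈ maximalIdeal A :=
    hδ ▸ Ideal.mul_mem_right _ _ (Ideal.mul_mem_right _ _ (Ideal.mul_mem_right _ _ hB))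
  let f : Polynomial A := Polynomial.X ^ 2 - Polynomial.X + Polynomial.C δ
  have hf : f.Monic := by simp only [f]; monicity!
  obtain ⟨z, hz, hz1⟩ := HenselianRing.is_henselian (I := maximalIdeal A) f hf 1
    (by simpa [f] using hδm) (by simp [f])
  have hzu : IsUnit z := (residue_ne_zero_iff_isUnit z).mp fun h => by
    have e : residue A (z - 1) = 0 := (residue_eq_zero_iff _).mpr hz1
    rw [map_sub, h, map_one, zero_sub, neg_eq_zero] at e
    exact one_ne_zero e
  obtain ⟨w, hw⟩ := hzu.exists_left_inv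
  refine ⟨-(C₀ * Ei * w), neg_mem (Ideal.mul_mem_right _ _ (Ideal.mul_mem_right _ _ hC)), ?_⟩
  have hz' : z ^ 2 - z + δ = 0 := by simpa [f, Polynomial.IsRoot] using hz
  rw [hδ] at hz'
  linear_combination (C₀ * w ^ 2) * hz' + (C₀ * w) * hw - (C₀ * w) * hEi + (-C₀ * (w * z + 1)) * hw

/-- existence of the normal form. -/
theorem exists_normalised [HenselianRing A (maximalIdeal A)] {fr : Frame ρbar} {r : GQ → Mt A}
    (h : Resid fr r) :
    ∃ P Q : Mt A, Q * P = 1 ∧ P * Q = 1 ∧ Resid fr (fun σ => P * r σ * Q) ∧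
      Normalised fr (fun σ => P * r σ * Q) := by
  obtain ⟨X, hX⟩ : ∃ X, X = comb fr.a r := ⟨_, rfl⟩
  have r1 := comb_a_residue h
  rw [← hX] at r1
  have m01 : X 0 1 ∈ maximalIdeal A := by
    simpa [residue_eq_zero_iff] using congrFun (congrFun r1 0) 1
  have m10 : X 1 0 ∈ maximalIdeal A := by
    simpa [residue_eq_zero_iff] using congrFun (congrFun r1 1) 0
  have e00 : residue A (X 0 0) = 1 := by simpa using congrFun (congrFun r1 0) 0
  have e11 : residue A (X 1 1) = 0 := by simpa using congrFun (congrFun r1 1) 1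
  obtain ⟨t, ht, hteq⟩ := exists_small_root (B := X 0 1) (E := X 0 0 - X 1 1) (C₀ := - X 1 0) m01
    ((residue_ne_zero_iff_isUnit _).mp (by rw [map_sub, e00, e11]; simp)) (neg_mem m10)
  obtain ⟨u, hu, hueq⟩ := exists_small_root (B := X 1 0) (E := X 1 1 - X 0 0) (C₀ := - X 0 1) m10
    ((residue_ne_zero_iff_isUnit _).mp (by rw [map_sub, e00, e11]; simp)) (neg_mem m01)
  let M : Mt A := !![1, u; t, 1]
  have hMres : M.map (residue A) = 1 := by
    ext i j; fin_cases i <;> fin_cases j <;>
      simp [M, (residue_eq_zero_iff _).mpr ht, (residue_eq_zero_iff _).mpr hu]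
  have hdet : IsUnit M.det := (residue_ne_zero_iff_isUnit _).mp (by
    rw [RingHom.map_det, RingHom.mapMatrix_apply, hMres, Matrix.det_one]; exact one_ne_zero)
  have hD : X * M = M * !![X 0 0 + X 0 1 * t, 0; 0, X 1 0 * u + X 1 1] := by
    ext i j; fin_cases i <;> fin_cases j <;> simp [M, Matrix.mul_apply, Fin.sum_univ_two]
    · linear_combination (-1 : A) * hueq
    · linear_combination (-1 : A) * hteq
  obtain ⟨Y, hY⟩ : ∃ Y, Y = comb fr.b (fun σ => M⁻¹ * r σ * M) := ⟨_, rfl⟩
  have hMi : (M⁻¹).map (residue A) = 1 := by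
    have := congrArg (fun N : Mt A => N.map (residue A)) (Matrix.mul_nonsing_inv M hdet)
    simpa [Matrix.map_mul, hMres] using this
  have r' : Resid fr (fun σ => M⁻¹ * r σ * M) :=
    h.conj (Matrix.nonsing_inv_mul M hdet) hMi
  have rY := comb_b_residue r'
  rw [← hY] at rY
  have y1 : residue A (Y 0 1) = 1 := by simpa using congrFun (congrFun rY 0) 1
  obtain ⟨yi, hyi⟩ := ((residue_ne_zero_iff_isUnit (Y 0 1)).mp
    (by rw [y1]; exact one_ne_zero)).exists_left_inv
  have yi1 : residue A yi = 1 := by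
    have := congrArg (residue A) hyi; simpa [y1] using this
  let S : Mt A := !![1, 0; 0, Y 0 1]
  let T : Mt A := !![1, 0; 0, yi]
  have hST : S * T = 1 := by
    ext i j; fin_cases i <;> fin_cases j <;>
      simp [S, T, Matrix.mul_apply, Fin.sum_univ_two, mul_comm (Y 0 1), hyi]
  have hTS : T * S = 1 := mul_eq_one_comm.mp hST
  refine ⟨S * M⁻¹, M * T, ?_, ?_, ?_, ?_, ?_, ?_⟩
  · rw [mul_assoc, ← mul_assoc T, hTS, one_mul, Matrix.mul_nonsing_inv M hdet]
  · rw [mul_assoc, ← mul_assoc M⁻¹, Matrix.nonsing_inv_mul M hdet, one_mul, hST]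
  · refine h.conj (Q := M * T) ?_ ?_
    · rw [mul_assoc, ← mul_assoc M⁻¹, Matrix.nonsing_inv_mul M hdet, one_mul, hST]
    · rw [Matrix.map_mul, hMi, mul_one]
      ext i j; fin_cases i <;> fin_cases j <;> simp [S, y1]
  all_goals rw [comb_conj]
  · rw [← hX, show S * M⁻¹ * X * (M * T) = S * (M⁻¹ * (X * M)) * T by simp only [mul_assoc], hD,
      Matrix.nonsing_inv_mul_cancel_left M _ hdet]
    simp [S, T, Matrix.mul_apply, Fin.sum_univ_two]
  · rw [← hX, show S * M⁻¹ * X * (M * T) = S * (M⁻¹ * (X * M)) * T by simp only [mul_assoc], hD,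
      Matrix.nonsing_inv_mul_cancel_left M _ hdet]
    simp [S, T, Matrix.mul_apply, Fin.sum_univ_two]
  · rw [show S * M⁻¹ * comb fr.b r * (M * T) = S * (M⁻¹ * comb fr.b r * M) * T by
        simp only [mul_assoc], ← comb_conj, ← hY]
    rw [Matrix.mul_apply, Fin.sum_univ_two, Matrix.mul_apply, Matrix.mul_apply, Fin.sum_univ_two,
      Fin.sum_univ_two]
    have s00 : S 0 0 = 1 := rfl
    have s01 : S 0 1 = 0 := rfl
    have t01 : T 0 1 = 0 := rfl
    have t11 : T 1 1 = yi := rfl
    rw [s00, s01, t01, t11, mul_zero, zero_add, one_mul, zero_mul, add_zero, mul_comm]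
    exact hyi

end FLTAgent.Deform
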