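import Fermat.Agent.Deform.Finiteness
import Fermat.Prelude.Thm_IsAdicComplete_of_module_finite

set_option autoImplicit false

noncomputable section

namespace FLTAgent.Deform

open IsLocalRing GaloisRep

variable {𝒪 : Type} [CommRing 𝒪] [IsLocalRing 𝒪]
  {ρbar : ResidualGaloisRep (ResidueField 𝒪)}

variable (𝒪) in
abbrev PS (r : ℕ) : Type := MvPowerSeries (Fin r) 𝒪

variable (𝒪) in
abbrev varIdeal (r : ℕ) : Ideal (PS 𝒪 r) := Ideal.span (Set.range MvPowerSeries.X)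

/-- the finite-level universal objects -/
structure Tower (𝒟 : ∀ ⦃A : Type⦄ [CommRing A] [IsLocalRing A] [Algebra 𝒪 A], GaloisRepAdic A → Prop)
    (fr : Frame ρbar) where
  r : ℕ
  t : Fin r → Fr 𝒪
  ht : GenSpec 𝒟 fr t
  I : ℕ → Ideal (Fr 𝒪)
  ok : ∀ n, OK 𝒟 fr (I n)
  pow_le : ∀ n, ptIdeal fr ^ (n + 1) ≤ I n
  least : ∀ n J, OK 𝒟 fr J → ptIdeal fr ^ (n + 1) ≤ J → I n ≤ J

variable {𝒟 : ∀ ⦃A : Type⦄ [CommRing A] [IsLocalRing A] [Algebra 𝒪 A], GaloisRepAdic A → Prop}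
  {fr : Frame ρbar}

theorem exists_tower [IsNoetherianRing 𝒪] [Finite (ResidueField 𝒪)]
    (h𝒟 : IsDeformationCondition 𝒪 𝒟)
    (hbar : 𝒟 (GaloisRepAdic.ofResidualGaloisRep ρbar)) (hfin : TangentFinite 𝒪 ρbar 𝒟)
    (fr : Frame ρbar) : Nonempty (Tower 𝒟 fr) := by
  obtain ⟨r, t, ht⟩ := exists_gens h𝒟 hbar hfin fr
  choose I h1 h2 h3 using exists_In h𝒟 hbar ht
  exact ⟨⟨r, t, ht, I, h1, h2, h3⟩⟩

namespace Tower

variable (T : Tower 𝒟 fr)

theorem anti {m n : ℕ} (h : m ≤ n) : T.I n ≤ T.I m :=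
  T.least n _ (T.ok m) ((Ideal.pow_le_pow_right (by omega)).trans (T.pow_le m))

theorem I_le (n : ℕ) : T.I n ≤ ptIdeal fr := (T.ok n).2.1

theorem I_succ [Finite (ResidueField 𝒪)] (h𝒟 : IsDeformationCondition 𝒪 𝒟) (n : ℕ) :
    T.I n ≤ T.I (n + 1) ⊔ ptIdeal fr ^ (n + 1) :=
  T.least n _ ((T.ok (n + 1)).mono h𝒟 le_sup_left
    (sup_le (T.I_le _) (Ideal.pow_le_self n.succ_ne_zero))) le_sup_right

theorem map_pow_eq_bot (n : ℕ) :
    ((ptIdeal fr).map (Ideal.Quotient.mk (T.I n))) ^ (n + 1) = ⊥ := by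
  rw [← Ideal.map_pow]
  exact le_bot_iff.mp ((Ideal.map_mono (T.pow_le n)).trans (by rw [Ideal.map_quotient_self]))

theorem evT_pow (n : ℕ) :
    ∀ x ∈ MvPolynomial.idealOfVars (Fin T.r) 𝒪 ^ (n + 1), evT T.t (T.I n) x = 0 := by
  intro x hx
  have h : (MvPolynomial.idealOfVars (Fin T.r) 𝒪).map (evT T.t (T.I n)) ≤
      (ptIdeal fr).map (Ideal.Quotient.mk (T.I n)) :=
    Ideal.map_le_iff_le_comap.mpr fun y hy => evT_mem T.ht (T.I_le n) y hy
  have h' := Ideal.pow_right_mono h (n + 1)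
    ((Ideal.map_pow (evT T.t (T.I n)) _ (n + 1)).le (Ideal.mem_map_of_mem _ hx))
  rwa [T.map_pow_eq_bot, Ideal.mem_bot] at h'

/-- the projection from power series -/
def π (n : ℕ) : PS 𝒪 T.r →ₐ[𝒪] Fr 𝒪 ⧸ T.I n :=
  (Ideal.Quotient.liftₐ (MvPolynomial.idealOfVars (Fin T.r) 𝒪 ^ (n + 1)) (evT T.t (T.I n))
      (T.evT_pow n)).comp
    ((MvPowerSeries.truncTotalAlgHom (Fin T.r) 𝒪 (n + 1)).restrictScalars 𝒪)

theorem π_apply (n : ℕ) (p : PS 𝒪 T.r) :
    T.π n p = evT T.t (T.I n) (MvPowerSeries.truncTotal (n + 1) p) := rfl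

theorem π_coe (n : ℕ) (q : MvPolynomial (Fin T.r) 𝒪) :
    T.π n (q : PS 𝒪 T.r) = evT T.t (T.I n) q := by
  rw [π_apply, ← sub_eq_zero, ← map_sub]
  refine T.evT_pow n _ ((MvPolynomial.mem_pow_idealOfVars_iff' _ _).mpr fun x hx => ?_)
  rw [MvPolynomial.coeff_sub, MvPowerSeries.coeff_truncTotal _ hx, MvPolynomial.coeff_coe,
    sub_self]

theorem π_X (n : ℕ) (k : Fin T.r) :
    T.π n (MvPowerSeries.X k) = Ideal.Quotient.mk (T.I n) (T.t k) := by
  rw [← MvPolynomial.coe_X, π_coe, evT, MvPolynomial.aeval_X]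

theorem π_compat {m n : ℕ} (h : m ≤ n) (p : PS 𝒪 T.r) :
    Ideal.Quotient.factorₐ 𝒪 (T.anti h) (T.π n p) = T.π m p := by
  have e : (Ideal.Quotient.factorₐ 𝒪 (T.anti h)).comp (evT T.t (T.I n)) = evT T.t (T.I m) :=
    MvPolynomial.algHom_ext fun k => by simp [evT]
  rw [π_apply, π_apply, ← AlgHom.comp_apply, e, ← sub_eq_zero, ← map_sub]
  exact T.evT_pow m _
    (MvPowerSeries.truncTotal_sub_truncTotal_mem_pow_idealOfVars (by omega) le_rfl p)

theorem π_surjective [Finite (ResidueField 𝒪)] [IsNoetherianRing 𝒪] (n : ℕ) :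
    Function.Surjective (T.π n) := fun y => by
  obtain ⟨q, rfl⟩ := evT_surjective T.ht (T.ok n) y
  exact ⟨q, T.π_coe n q⟩

def K (n : ℕ) : Ideal (PS 𝒪 T.r) := RingHom.ker (T.π n)

theorem K_anti {m n : ℕ} (h : m ≤ n) : T.K n ≤ T.K m := fun x hx => by
  rw [K, RingHom.mem_ker] at hx ⊢
  rw [← T.π_compat h, hx, map_zero]

theorem map_var [Finite (ResidueField 𝒪)] [IsNoetherianRing 𝒪] (n : ℕ) :
    (varIdeal 𝒪 T.r).map (T.π n) = (ptIdeal fr).map (Ideal.Quotient.mk (T.I n)) := by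
  rw [map_span_eq T.ht (T.ok n), Ideal.map_span, ← Set.range_comp]
  congr 1
  ext x
  simp [π_X]

theorem var_pow_le [Finite (ResidueField 𝒪)] [IsNoetherianRing 𝒪] (n : ℕ) :
    varIdeal 𝒪 T.r ^ (n + 1) ≤ T.K n := fun x hx => by
  have h := Ideal.mem_map_of_mem (T.π n) hx
  rw [Ideal.map_pow, T.map_var, T.map_pow_eq_bot, Ideal.mem_bot] at h
  exact h

theorem K_le_succ [Finite (ResidueField 𝒪)] [IsNoetherianRing 𝒪]
    (h𝒟 : IsDeformationCondition 𝒪 𝒟) (n : ℕ) :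
    T.K n ≤ T.K (n + 1) ⊔ varIdeal 𝒪 T.r ^ (n + 1) := by
  intro x hx
  rw [K, RingHom.mem_ker, ← T.π_compat n.le_succ] at hx
  obtain ⟨y, hy⟩ := Ideal.Quotient.mk_surjective (T.π (n + 1) x)
  rw [← hy] at hx
  have hy' : y ∈ T.I n := Ideal.Quotient.eq_zero_iff_mem.mp hx
  have h2 : T.π (n + 1) x ∈ (varIdeal 𝒪 T.r ^ (n + 1)).map (T.π (n + 1)) := by
    rw [Ideal.map_pow, T.map_var, ← Ideal.map_pow, ← hy]
    have := Ideal.mem_map_of_mem (Ideal.Quotient.mk (T.I (n + 1))) (T.I_succ h𝒟 n hy')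
    rwa [Ideal.map_sup, Ideal.map_quotient_self, bot_sup_eq] at this
  obtain ⟨z, hz, hze⟩ := (Ideal.mem_map_iff_of_surjective _ (T.π_surjective (n + 1))).mp h2
  refine Submodule.mem_sup.mpr ⟨x - z, ?_, z, hz, sub_add_cancel x z⟩
  rw [K, RingHom.mem_ker, map_sub, hze, sub_self]

theorem exists_limit [Finite (ResidueField 𝒪)] [IsNoetherianRing 𝒪]
    (h𝒟 : IsDeformationCondition 𝒪 𝒟) (s : ℕ → PS 𝒪 T.r)
    (hs : ∀ n, s (n + 1) - s n ∈ T.K n) : ∃ y, ∀ n, y - s n ∈ T.K n := by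
  set J := varIdeal 𝒪 T.r
  have hdec : ∀ n, ∀ x ∈ T.K n, ∃ j ∈ J ^ (n + 1), x - j ∈ T.K (n + 1) := fun n x hx => by
    obtain ⟨k, hk, j, hj, e⟩ := Submodule.mem_sup.mp (T.K_le_succ h𝒟 n hx)
    exact ⟨j, hj, by rw [← e, add_sub_cancel_right]; exact hk⟩
  choose j hj hj' using hdec
  -- corrected sequence
  let w : ∀ n, {v : PS 𝒪 T.r // v - s n ∈ T.K n} := fun n =>
    Nat.rec ⟨s 0, by rw [sub_self]; exact Ideal.zero_mem _⟩
      (fun n v => ⟨v.1 + j n (s (n + 1) - v.1)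
          (by have := (T.K n).sub_mem (hs n) v.2; simpa using this), by
        have h' : s (n + 1) - v.1 ∈ T.K n := by
          have := (T.K n).sub_mem (hs n) v.2; simpa using this
        have h := neg_mem (hj' n (s (n + 1) - v.1) h')
        convert h using 1
        ring⟩) n
  have hstep : ∀ n, (w (n + 1)).1 - (w n).1 ∈ J ^ (n + 1) := fun n => by
    show (w n).1 + j n _ _ - (w n).1 ∈ _
    rw [add_sub_cancel_left]; exact hj n _ _
  have hcauchy : ∀ {m n}, m ≤ n → (w n).1 - (w m).1 ∈ J ^ (m + 1) := by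
    intro m n h
    induction n, h using Nat.le_induction with
    | base => simp
    | succ n h ih =>
      have := Ideal.add_mem _ (Ideal.pow_le_pow_right (by omega) (hstep n)) ih
      simpa using this
  obtain ⟨L, hL⟩ := IsPrecomplete.prec (I := J) inferInstance (f := fun n => (w n).1)
    (fun {m n} h => by
      rw [SModEq.sub_mem, smul_eq_mul, Ideal.mul_top, ← neg_mem_iff, neg_sub]
      exact Ideal.pow_le_pow_right m.le_succ (hcauchy h))
  refine ⟨L, fun n => ?_⟩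
  have h1 := hL (n + 1)
  rw [SModEq.sub_mem, smul_eq_mul, Ideal.mul_top] at h1
  have h2 := T.var_pow_le n h1
  have h3 := T.K_anti n.le_succ (w (n + 1)).2
  have := (T.K n).add_mem ((T.K n).sub_mem h3 h2) (hs n)
  simpa using this

def Kinf : Ideal (PS 𝒪 T.r) := ⨅ n, T.K n

theorem K_eq [Finite (ResidueField 𝒪)] [IsNoetherianRing 𝒪] (h𝒟 : IsDeformationCondition 𝒪 𝒟)
    (n : ℕ) : T.K n = T.Kinf ⊔ varIdeal 𝒪 T.r ^ (n + 1) := by
  refine le_antisymm (fun x hx => ?_) (sup_le (iInf_le _ n) (T.var_pow_le n))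
  set J := varIdeal 𝒪 T.r
  have hdec : ∀ i, ∀ z ∈ T.K (n + i), ∃ z' ∈ T.K (n + (i + 1)), z' - z ∈ J ^ (n + i + 1) :=
    fun i z hz => by
      obtain ⟨k, hk, j, hj, e⟩ := Submodule.mem_sup.mp (T.K_le_succ h𝒟 (n + i) hz)
      exact ⟨k, hk, by rw [← e, sub_add_cancel_left]; exact neg_mem hj⟩
  choose f hf hf' using hdec
  let w : ∀ i, {z : PS 𝒪 T.r // z ∈ T.K (n + i)} := fun i =>
    Nat.rec ⟨x, by simpa using hx⟩ (fun i v => ⟨f i v.1 v.2, hf i v.1 v.2⟩) i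
  have hcauchy : ∀ {m k}, m ≤ k → (w k).1 - (w m).1 ∈ J ^ (n + m + 1) := by
    intro m k h
    induction k, h using Nat.le_induction with
    | base => simp
    | succ k h ih =>
      have := Ideal.add_mem _ (Ideal.pow_le_pow_right (by omega) (hf' k (w k).1 (w k).2)) ih
      simpa [w] using this
  obtain ⟨L, hL⟩ := IsPrecomplete.prec (I := J) inferInstance (f := fun n => (w n).1)
    (fun {m k} h => by
      rw [SModEq.sub_mem, smul_eq_mul, Ideal.mul_top, ← neg_mem_iff, neg_sub]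
      exact Ideal.pow_le_pow_right (by omega) (hcauchy h))
  refine Submodule.mem_sup.mpr ⟨L, Submodule.mem_iInf _ |>.mpr fun m => ?_, x - L, ?_,
    add_sub_cancel L x⟩
  · have h1 := hL (m + 1)
    rw [SModEq.sub_mem, smul_eq_mul, Ideal.mul_top] at h1
    have := (T.K m).sub_mem (T.K_anti (by omega) (w (m + 1)).2) (T.var_pow_le m h1)
    simpa using this
  · have h1 := hL (n + 1)
    rw [SModEq.sub_mem, smul_eq_mul, Ideal.mul_top] at h1
    have := Ideal.add_mem _ (neg_mem (hcauchy (m := 0) (Nat.zero_le (n + 1)))) h1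
    simpa [w] using this

/-- the universal ring -/
abbrev R : Type := PS 𝒪 T.r ⧸ T.Kinf

def p (n : ℕ) : T.R →ₐ[𝒪] Fr 𝒪 ⧸ T.I n :=
  Ideal.Quotient.liftₐ T.Kinf (T.π n) fun _ hx => RingHom.mem_ker.mp (iInf_le T.K n hx)

theorem p_mk (n : ℕ) (x : PS 𝒪 T.r) : T.p n (Ideal.Quotient.mk _ x) = T.π n x := rfl

theorem p_surjective [Finite (ResidueField 𝒪)] [IsNoetherianRing 𝒪] (n : ℕ) :
    Function.Surjective (T.p n) := fun y => by
  obtain ⟨x, rfl⟩ := T.π_surjective n y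
  exact ⟨_, T.p_mk n x⟩

theorem p_compat {m n : ℕ} (h : m ≤ n) (x : T.R) :
    Ideal.Quotient.factorₐ 𝒪 (T.anti h) (T.p n x) = T.p m x := by
  obtain ⟨x, rfl⟩ := Ideal.Quotient.mk_surjective x
  exact T.π_compat h x

theorem eq_of_p {x y : T.R} (h : ∀ n, T.p n x = T.p n y) : x = y := by
  obtain ⟨x, rfl⟩ := Ideal.Quotient.mk_surjective x
  obtain ⟨y, rfl⟩ := Ideal.Quotient.mk_surjective y
  refine Ideal.Quotient.eq.mpr ((Submodule.mem_iInf _).mpr fun n => ?_)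
  rw [K, RingHom.mem_ker, map_sub, sub_eq_zero]
  exact h n

theorem exists_lift [Finite (ResidueField 𝒪)] [IsNoetherianRing 𝒪]
    (h𝒟 : IsDeformationCondition 𝒪 𝒟) (x : Fr 𝒪) :
    ∃ y : T.R, ∀ n, T.p n y = Ideal.Quotient.mk (T.I n) x := by
  choose s hs using fun n => T.π_surjective n (Ideal.Quotient.mk (T.I n) x)
  obtain ⟨y, hy⟩ := T.exists_limit h𝒟 s fun n => by
    rw [K, RingHom.mem_ker, map_sub, sub_eq_zero, hs, ← T.π_compat n.le_succ, hs]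
    simp
  refine ⟨Ideal.Quotient.mk _ y, fun n => ?_⟩
  rw [p_mk, ← hs, ← sub_eq_zero, ← map_sub]
  exact hy n

theorem Kinf_ne_top : T.Kinf ≠ ⊤ := by
  intro h
  have h1 : (1 : PS 𝒪 T.r) ∈ T.K 0 := iInf_le T.K 0 (show 1 ∈ T.Kinf by rw [h]; trivial)
  rw [K, RingHom.mem_ker, map_one] at h1
  exact (ptIdeal_isMaximal fr).ne_top ((Ideal.eq_top_iff_one _).mpr
    (T.I_le 0 (Ideal.Quotient.eq_zero_iff_mem.mp ((map_one (Ideal.Quotient.mk (T.I 0))).trans h1))))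

instance isLocalRing_R : IsLocalRing T.R :=
  haveI : Nontrivial T.R := Ideal.Quotient.nontrivial_iff.mpr T.Kinf_ne_top
  IsLocalRing.of_surjective' (Ideal.Quotient.mk T.Kinf) Ideal.Quotient.mk_surjective

theorem ker_p [Finite (ResidueField 𝒪)] [IsNoetherianRing 𝒪] (h𝒟 : IsDeformationCondition 𝒪 𝒟)
    (n : ℕ) : RingHom.ker (T.p n) = (varIdeal 𝒪 T.r).map (Ideal.Quotient.mk T.Kinf) ^ (n + 1) := by
  refine Ideal.comap_injective_of_surjective _ Ideal.Quotient.mk_surjective ?_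
  rw [← Ideal.map_pow, Ideal.comap_map_of_surjective _ Ideal.Quotient.mk_surjective,
    ← RingHom.ker_eq_comap_bot, Ideal.mk_ker, sup_comm, ← T.K_eq h𝒟]
  ext x
  rfl

theorem maximalIdeal_R [Finite (ResidueField 𝒪)] [IsNoetherianRing 𝒪]
    (h𝒟 : IsDeformationCondition 𝒪 𝒟) :
    maximalIdeal T.R = (varIdeal 𝒪 T.r).map (Ideal.Quotient.mk T.Kinf) := by
  refine (IsLocalRing.eq_maximalIdeal ?_).symm
  have h := T.ker_p h𝒟 0
  rw [zero_add] at h
  have h' : RingHom.ker (T.p 0) = (varIdeal 𝒪 T.r).map (Ideal.Quotient.mk T.Kinf) :=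
    h.trans (Submodule.pow_one _)
  rw [← h']
  have h0 : T.I 0 = ptIdeal fr :=
    le_antisymm (T.I_le 0) (by simpa using T.pow_le 0)
  haveI : (T.I 0).IsMaximal := h0 ▸ ptIdeal_isMaximal fr
  letI : Field (Fr 𝒪 ⧸ T.I 0) := Ideal.Quotient.field _
  exact RingHom.ker_isMaximal_of_surjective (T.p 0).toRingHom (T.p_surjective 0)

instance isLocalHom_R : IsLocalHom (algebraMap 𝒪 T.R) := by
  refine ⟨fun a ha => ?_⟩
  by_contra hu
  have h0 : T.p 0 (algebraMap 𝒪 T.R a) = 0 := by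
    rw [AlgHom.commutes]
    refine Ideal.Quotient.eq_zero_iff_mem.mpr (T.pow_le 0 ?_)
    rw [zero_add, pow_one, ptIdeal, RingHom.mem_ker, AlgHom.commutes]
    exact (residue_eq_zero_iff a).mpr hu
  haveI : Nontrivial (Fr 𝒪 ⧸ T.I 0) := Ideal.Quotient.nontrivial_iff.mpr fun h =>
    (ptIdeal_isMaximal fr).ne_top (top_le_iff.mp (h ▸ T.I_le 0))
  exact (ha.map (T.p 0)).ne_zero h0

theorem residue_surjective_R [Finite (ResidueField 𝒪)] [IsNoetherianRing 𝒪]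
    (h𝒟 : IsDeformationCondition 𝒪 𝒟) :
    Function.Surjective (residue T.R ∘ algebraMap 𝒪 T.R) := by
  intro x
  obtain ⟨x, rfl⟩ := residue_surjective x
  obtain ⟨z, hz⟩ := Ideal.Quotient.mk_surjective (T.p 0 x)
  obtain ⟨a, ha⟩ := exists_const_sub_mem fr z
  refine ⟨a, ?_⟩
  rw [Function.comp_apply, ← sub_eq_zero, ← map_sub, residue_eq_zero_iff, T.maximalIdeal_R h𝒟,
    ← Submodule.pow_one (Ideal.map _ _), ← T.ker_p h𝒟 0, RingHom.mem_ker, map_sub, AlgHom.commutes, ← hz,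
    ← neg_eq_zero, neg_sub]
  exact Ideal.Quotient.eq_zero_iff_mem.mpr (T.pow_le 0 (by simpa using ha))

theorem isAdicComplete_R [Finite (ResidueField 𝒪)] [IsNoetherianRing 𝒪]
    (h𝒟 : IsDeformationCondition 𝒪 𝒟) : IsAdicComplete (maximalIdeal T.R) T.R := by
  rw [T.maximalIdeal_R h𝒟, ← Ideal.Quotient.algebraMap_eq, IsAdicComplete.map_algebraMap_iff]
  exact IsAdicComplete.of_module_finite _ _

theorem ker_p' [Finite (ResidueField 𝒪)] [IsNoetherianRing 𝒪] (h𝒟 : IsDeformationCondition 𝒪 𝒟)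
    (n : ℕ) : RingHom.ker (T.p n) = maximalIdeal T.R ^ (n + 1) := by
  rw [T.maximalIdeal_R h𝒟, T.ker_p h𝒟]

end Tower

end FLTAgent.Deform
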