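import Fermat.Agent.Deform.Mat

set_option autoImplicit false

noncomputable section

namespace FLTAgent.Deform

open scoped TensorProduct
open IsLocalRing

/-- Burnside for `2×2`: a submonoid image with no invariant line spans the matrices. -/
theorem span_eq_top_of_irr {K : Type} [Field K] [IsAlgClosed K] (S : Set (Mt K)) (h1 : (1 : Mt K) ∈ S)
    (hmul : ∀ x ∈ S, ∀ y ∈ S, x * y ∈ S)
    (hirr : ∀ W : Submodule K (Fin 2 → K), (∀ x ∈ S, ∀ v ∈ W, Matrix.mulVec x v ∈ W) →
      W = ⊥ ∨ W = ⊤) :
    Submodule.span K S = ⊤ := by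
  classical
  set E : Subalgebra K (Mt K) := Algebra.adjoin K S with hE
  have hEspan : E.toSubmodule = Submodule.span K S := by
    rw [hE, Algebra.adjoin_eq_span]
    congr 1
    refine Set.Subset.antisymm (fun x hx => ?_) Submonoid.subset_closure
    induction hx using Submonoid.closure_induction with
    | mem x hx => exact hx
    | one => exact h1
    | mul x y _ _ hx hy => exact hmul x hx y hy
  have hirrE : ∀ W : Submodule K (Fin 2 → K), (∀ x ∈ E, ∀ v ∈ W, Matrix.mulVec x v ∈ W) →
      W = ⊥ ∨ W = ⊤ := fun W hW =>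
    hirr W fun x hx => hW x (Algebra.subset_adjoin hx)
  -- a non-scalar element
  obtain ⟨e, heS, he⟩ : ∃ e ∈ E, ∀ c : K, e ≠ c • (1 : Mt K) := by
    by_contra hcon
    push Not at hcon
    let W : Submodule K (Fin 2 → K) := Submodule.span K {![1, 0]}
    rcases hirrE W (fun x hx v hv => by
      obtain ⟨c, rfl⟩ := hcon x hx
      rw [Matrix.smul_mulVec, Matrix.one_mulVec]
      exact W.smul_mem _ hv) with h | h
    · rw [Submodule.span_singleton_eq_bot] at h
      simpa using congrFun h 0
    · have : (![0, 1] : Fin 2 → K) ∈ W := h ▸ Submodule.mem_top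
      obtain ⟨c, hc⟩ := Submodule.mem_span_singleton.mp this
      simpa using congrFun hc 1
  obtain ⟨μ, hμ⟩ := Module.End.exists_eigenvalue (Matrix.toLin' e)
  obtain ⟨v, hv⟩ := hμ.exists_hasEigenvector
  set N := e - μ • (1 : Mt K) with hN
  have hNE : N ∈ E := sub_mem heS (E.smul_mem (one_mem E) μ)
  have hNv : N.mulVec v = 0 := by
    have := hv.apply_eq_smul
    rw [Matrix.toLin'_apply] at this
    rw [hN, Matrix.sub_mulVec, Matrix.smul_mulVec, Matrix.one_mulVec, this, sub_self]
  have hN0 : N ≠ 0 := fun h => he μ (sub_eq_zero.mp h)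
  -- `N` has rank one
  have hrk : Module.finrank K (LinearMap.range N.mulVecLin) = 1 := by
    have h := LinearMap.finrank_range_add_finrank_ker N.mulVecLin
    rw [Module.finrank_fin_fun] at h
    have hk : 0 < Module.finrank K (LinearMap.ker N.mulVecLin) :=
      Module.finrank_pos_iff_exists_ne_zero.mpr ⟨⟨v, by simpa using hNv⟩,
        fun hh => hv.2 (congrArg Subtype.val hh)⟩
    have hr : 0 < Module.finrank K (LinearMap.range N.mulVecLin) := by
      rw [pos_iff_ne_zero, Ne, Submodule.finrank_eq_zero, LinearMap.range_eq_bot]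
      exact fun hh => hN0 (Matrix.toLin'.injective (hh.trans (map_zero _).symm))
    omega
  obtain ⟨u, hu, hu'⟩ : ∃ u : Fin 2 → K, u ≠ 0 ∧ ∀ w, ∃ c : K, N.mulVec w = c • u := by
    obtain ⟨u, hu, hsp⟩ := finrank_eq_one_iff'.mp hrk
    refine ⟨u, fun h => hu (Subtype.ext h), fun w => ?_⟩
    obtain ⟨c, hc⟩ := hsp ⟨N.mulVec w, LinearMap.mem_range.mpr ⟨w, rfl⟩⟩
    exact ⟨c, (congrArg Subtype.val hc).symm⟩
  choose φ hφ using hu'
  have hNform : N = Matrix.vecMulVec u (fun j => φ (Pi.single j 1)) := by
    ext i j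
    have := congrFun (hφ (Pi.single j 1)) i
    rw [Matrix.mulVec_single_one] at this
    simp only [Matrix.col_apply, Pi.smul_apply, smul_eq_mul] at this
    rw [Matrix.vecMulVec_apply, this, mul_comm]
  set ψ : Fin 2 → K := fun j => φ (Pi.single j 1)
  have hψ : ψ ≠ 0 := by
    intro h; apply hN0; rw [hNform, h]; ext; simp [Matrix.vecMulVec_apply]
  -- span of `E u` and of `ψ E`
  have horb : ∀ a : Fin 2 → K, ∃ x ∈ E, x.mulVec u = a := by
    let W : Submodule K (Fin 2 → K) := E.toSubmodule.map ((Matrix.mulVecBilin K K).flip u)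
    have hW : ∀ x ∈ E, ∀ w ∈ W, Matrix.mulVec x w ∈ W := by
      rintro x hx w ⟨y, hy, rfl⟩
      exact ⟨x * y, E.mul_mem hx hy, by simp [Matrix.mulVec_mulVec]⟩
    rcases hirrE W hW with h | h
    · exfalso
      have : u ∈ W := ⟨1, E.one_mem, by simp⟩
      rw [h] at this; exact hu ((Submodule.mem_bot K).mp this)
    · intro a
      obtain ⟨x, hx, hxa⟩ : a ∈ W := h ▸ Submodule.mem_top
      exact ⟨x, hx, by simpa using hxa⟩
  have horb' : ∀ a : Fin 2 → K, ∃ x ∈ E, Matrix.vecMul ψ x = a := by
    let T : Submodule K (Fin 2 → K) := E.toSubmodule.map (Matrix.vecMulBilin K K ψ)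
    suffices T = ⊤ by
      intro a
      obtain ⟨x, hx, hxa⟩ : a ∈ T := this ▸ Submodule.mem_top
      exact ⟨x, hx, by simpa using hxa⟩
    let W : Submodule K (Fin 2 → K) :=
      { carrier := {w | ∀ x ∈ E, dotProduct ψ (x.mulVec w) = 0}
        add_mem' := fun {a b} ha hb x hx => by
          rw [Matrix.mulVec_add, dotProduct_add, ha x hx, hb x hx, add_zero]
        zero_mem' := fun x hx => by simp
        smul_mem' := fun c a ha x hx => by
          rw [Matrix.mulVec_smul, dotProduct_smul, ha x hx, smul_zero] }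
    have hW : ∀ x ∈ E, ∀ w ∈ W, Matrix.mulVec x w ∈ W := fun x hx w hw y hy => by
      rw [Matrix.mulVec_mulVec]; exact hw _ (E.mul_mem hy hx)
    rcases hirrE W hW with h | h
    · by_contra hT
      obtain ⟨f, hf0, hfT⟩ := Submodule.exists_dual_map_eq_bot_of_lt_top
        (lt_top_iff_ne_top.mpr hT) inferInstance
      have hw : (fun i => f (Pi.single i 1)) ∈ W := by
        intro x hx
        have h0 : f (Matrix.vecMul ψ x) = 0 := by
          have : f (Matrix.vecMul ψ x) ∈ T.map f := ⟨_, ⟨x, hx, by simp⟩, rfl⟩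
          rw [hfT] at this; exact (Submodule.mem_bot K).mp this
        rw [Matrix.dotProduct_mulVec]
        conv_lhs at h0 => rw [pi_eq_sum_univ' (Matrix.vecMul ψ x)]
        simpa [dotProduct, map_sum] using h0
      rw [h, Submodule.mem_bot] at hw
      exact hf0 ((Pi.basisFun K (Fin 2)).ext fun i => by simpa using congrFun hw i)
    · exfalso
      apply hψ
      funext i
      have : (Pi.single i 1 : Fin 2 → K) ∈ W := h ▸ Submodule.mem_top
      have h2 := this 1 E.one_mem
      rw [Matrix.one_mulVec, dotProduct_single_one] at h2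
      exact h2
  rw [← hEspan, eq_top_iff]
  intro M _
  have hM : M = ∑ i, ∑ j, M i j • Matrix.single i j (1 : K) := by
    conv_lhs => rw [Matrix.matrix_eq_sum_single M]
    simp
  rw [hM]
  refine sum_mem fun i _ => sum_mem fun j _ => Submodule.smul_mem _ _ ?_
  obtain ⟨x, hx, hxi⟩ := horb (Pi.single i 1)
  obtain ⟨y, hy, hyj⟩ := horb' (Pi.single j 1)
  have : Matrix.single i j (1 : K) = x * N * y := by
    rw [hNform, Matrix.mul_vecMulVec, Matrix.vecMulVec_mul, hxi, hyj,
      ← Matrix.single_eq_single_vecMulVec_single]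
  rw [this]
  exact E.mul_mem (E.mul_mem hx hNE) hy

/-- Absolute irreducibility gives a spanning image. -/
theorem span_range_eq_top {k : Type} [Field k] (ρ : ResidualGaloisRep k)
    (habs : ρ.IsAbsolutelyIrreducible) {r : GQ → Mt k} (hr : RepMat ρ.ρ r) :
    Submodule.span k (Set.range r) = ⊤ := by
  classical
  let K := AlgebraicClosure k
  let ι := algebraMap k K
  let rK : GQ → Mt K := fun σ => (r σ).map ι
  have hK : RepMat (ρ.baseChange K).ρ rK := repMat_baseChange_residual hr
  have htop : Submodule.span K (Set.range rK) = ⊤ := by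
    refine span_eq_top_of_irr _ ⟨1, hK.map_one⟩ ?_ ?_
    · rintro x ⟨σ, rfl⟩ y ⟨τ, rfl⟩
      exact ⟨σ * τ, hK.map_mul σ τ⟩
    · intro W hW
      obtain ⟨b, hb⟩ := hK
      have hirr := habs (W.comap b.equivFun.toLinearMap) (fun σ x hx => by
        rw [Submodule.mem_comap] at hx ⊢
        have : b.equivFun ((ρ.baseChange K).ρ σ x) = (rK σ).mulVec (b.equivFun x) := by
          rw [← hb σ]
          exact (LinearMap.toMatrix_mulVec_repr b b ((ρ.baseChange K).ρ σ) x).symm
        rw [LinearEquiv.coe_coe, this]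
        exact hW _ ⟨σ, rfl⟩ _ hx)
      rcases hirr with h | h
      · left
        rw [← Submodule.map_comap_eq_of_surjective b.equivFun.surjective W]
        erw [h, Submodule.map_bot]
      · right
        rw [← Submodule.map_comap_eq_of_surjective b.equivFun.surjective W]
        erw [h, Submodule.map_top, LinearEquiv.range]
  by_contra hne
  obtain ⟨f, hf0, hf⟩ := Submodule.exists_dual_map_eq_bot_of_lt_top
    (lt_top_iff_ne_top.mpr hne) inferInstance
  let g : Mt K →ₗ[K] K :=
    { toFun := fun x => ∑ i, ∑ j, ι (f (Matrix.single i j 1)) * x i j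
      map_add' := fun x y => by simp [mul_add, Finset.sum_add_distrib]
      map_smul' := fun c x => by simp [mul_left_comm, mul_add] }
  have hg : ∀ m : Mt k, g (m.map ι) = ι (f m) := by
    intro m
    have e : ∀ i j, Matrix.single i j (m i j) = m i j • Matrix.single i j (1 : k) := by
      intro i j; simp
    conv_rhs => rw [Matrix.matrix_eq_sum_single m]
    simp only [g, map_sum, e, map_smul, smul_eq_mul, map_mul, LinearMap.coe_mk, AddHom.coe_mk,
      Matrix.map_apply]
    simp only [mul_comm]
  have hg0 : ∀ x ∈ Submodule.span K (Set.range rK), g x = 0 := by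
    intro x hx
    induction hx using Submodule.span_induction with
    | mem x hx =>
      obtain ⟨σ, rfl⟩ := hx
      rw [hg]
      have : f (r σ) ∈ (Submodule.span k (Set.range r)).map f :=
        ⟨_, Submodule.subset_span ⟨σ, rfl⟩, rfl⟩
      rw [hf, Submodule.mem_bot] at this
      rw [this, map_zero]
    | zero => exact map_zero g
    | add x y _ _ hx hy => rw [map_add, hx, hy, add_zero]
    | smul c x _ hx => rw [map_smul, hx, smul_zero]
  apply hf0
  refine LinearMap.ext fun m => ?_
  have := hg0 (m.map ι) (htop ▸ Submodule.mem_top)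
  rw [hg] at this
  exact (map_eq_zero ι).mp this

end FLTAgent.Deform
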