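import Fermat.Agent.Deform.Ideals

set_option autoImplicit false

noncomputable section

namespace FLTAgent.Deform

open IsLocalRing GaloisRep

variable {𝒪 : Type} [CommRing 𝒪] [IsLocalRing 𝒪]
  {ρbar : ResidualGaloisRep (ResidueField 𝒪)}
  {𝒟 : ∀ ⦃A : Type⦄ [CommRing A] [IsLocalRing A] [Algebra 𝒪 A], GaloisRepAdic A → Prop}

/-- bound on the square-zero quotients, with the algebra structures on dual numbers abstracted. -/
theorem card_le_of_tangent [Finite (ResidueField 𝒪)] (h𝒟 : IsDeformationCondition 𝒪 𝒟)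
    (fr : Frame ρbar) [Algebra 𝒪 (DualNumber (ResidueField 𝒪))]
    [Algebra (ResidueField 𝒪) (ResidueField (DualNumber (ResidueField 𝒪)))]
    (h1 : ∀ a, algebraMap 𝒪 (DualNumber (ResidueField 𝒪)) a =
      TrivSqZeroExt.inl (residue 𝒪 a))
    (h2 : ∀ a, algebraMap (ResidueField 𝒪) (ResidueField (DualNumber (ResidueField 𝒪))) a =
      residue _ (TrivSqZeroExt.inl a))
    (s : Setoid {ρ : GaloisRepAdic (DualNumber (ResidueField 𝒪)) //
      𝒟 ρ ∧ ρ.residual.IsEquiv (ρbar.baseChange (ResidueField (DualNumber (ResidueField 𝒪))))})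
    (hs : ∀ a b, s.r a b → a.1.IsEquiv b.1) [Finite (Quotient s)]
    {J : Ideal (Fr 𝒪)} (hJ : OK 𝒟 fr J) (hsq : ptIdeal fr ^ 2 ≤ J)
    (hϖ : (maximalIdeal 𝒪).map (algebraMap 𝒪 (Fr 𝒪)) ≤ J) :
    Nat.card (Fr 𝒪 ⧸ J) ≤ Nat.card (ResidueField 𝒪) * Nat.card (Quotient s) := by
  classical
  have hle := hJ.2.1
  haveI := hJ.1
  obtain ⟨hresJ, hnormJ, ρJ, hρJ, hDJ⟩ :=
    (by haveI := hJ.2.2.2.2.1; exact ⟨resid_taut hle, hJ.2.2.2.1, hJ.2.2.2.2.2⟩ :
      haveI := hJ.2.2.2.2.1; Good 𝒟 fr (taut J))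
  haveI := hJ.2.2.2.2.1
  set B := Fr 𝒪 ⧸ J
  let ι : ResidueField 𝒪 →+* B := Ideal.Quotient.lift (maximalIdeal 𝒪) (algebraMap 𝒪 B)
    (fun a ha => Ideal.Quotient.eq_zero_iff_mem.mpr (hϖ (Ideal.mem_map_of_mem _ ha)))
  letI : Algebra (ResidueField 𝒪) B := ι.toAlgebra
  let β : B →ₐ[𝒪] ResidueField 𝒪 := Ideal.Quotient.liftₐ J
    (ev fun σ => (fr.c σ).map (residue 𝒪)) (fun x hx => RingHom.mem_ker.mp (hle hx))
  have hβι : ∀ a, β (algebraMap (ResidueField 𝒪) B a) = a := by
    intro a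
    obtain ⟨a, rfl⟩ := residue_surjective a
    show β (algebraMap 𝒪 B a) = _
    rw [AlgHom.commutes]; rfl
  have hβker : ∀ x : B, x - algebraMap (ResidueField 𝒪) B (β x) ∈
      (ptIdeal fr).map (Ideal.Quotient.mk J) := by
    intro x
    obtain ⟨x, rfl⟩ := Ideal.Quotient.mk_surjective x
    obtain ⟨a, ha⟩ := exists_const_sub_mem fr x
    have hb : β (Ideal.Quotient.mk J x) = residue 𝒪 a := by
      have e : ev (A := ResidueField 𝒪) (fun σ => (fr.c σ).map (residue 𝒪))
          (x - algebraMap 𝒪 _ a) = 0 := ha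
      rw [map_sub, AlgHom.commutes, sub_eq_zero] at e
      exact e
    rw [hb]
    show Ideal.Quotient.mk J x - algebraMap 𝒪 B a ∈ _
    exact Ideal.mem_map_of_mem _ ha
  have hmul0 : ∀ x y : B, (x - algebraMap (ResidueField 𝒪) B (β x)) *
      (y - algebraMap (ResidueField 𝒪) B (β y)) = 0 := by
    intro x y
    have h := Ideal.mul_mem_mul (hβker x) (hβker y)
    rw [← Ideal.map_mul, ← sq, Ideal.map_eq_bot_iff_le_ker _ |>.mpr
      (by rw [Ideal.mk_ker]; exact hsq)] at h
    exact h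
  let Λ := {L : B →ₗ[ResidueField 𝒪] ResidueField 𝒪 // L 1 = 0}
  have hL : ∀ (L : Λ) (x y : B), L.1 (x * y) = β x * L.1 y + β y * L.1 x := by
    intro L x y
    have e : x * y = β x • y + β y • x - (β x * β y) • (1 : B) := by
      rw [Algebra.smul_def, Algebra.smul_def, Algebra.smul_def, mul_one, map_mul]
      linear_combination hmul0 x y
    rw [e]; simp [L.2]
  have hF : ∀ L : Λ, ∃ f : B →ₐ[𝒪] DualNumber (ResidueField 𝒪), ∀ x,
      f x = TrivSqZeroExt.inl (β x) + TrivSqZeroExt.inr (L.1 x) := fun L => by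
    refine ⟨{ toFun := fun x => TrivSqZeroExt.inl (β x) + TrivSqZeroExt.inr (L.1 x)
              map_one' := by ext <;> simp [L.2]
              map_mul' := fun x y => by ext <;> simp [hL, mul_comm]
              map_zero' := by ext <;> simp
              map_add' := fun x y => by ext <;> simp
              commutes' := fun a => by
                rw [h1, AlgHom.commutes]
                have e : algebraMap 𝒪 B a = residue 𝒪 a • (1 : B) := by
                  rw [Algebra.smul_def, mul_one]; rfl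
                rw [e, map_smul, L.2, smul_zero, TrivSqZeroExt.inr_zero, add_zero]; rfl }, fun x => rfl⟩
  choose F hFx using hF
  have tB := isTest_quot (fr := fr) (I := J) hle
  have tD : IsArtinianTestAlgebra 𝒪 (DualNumber (ResidueField 𝒪)) := by
    refine ⟨⟨fun a ha => ?_⟩, fun x => ?_, ?_⟩
    · rw [h1, TrivSqZeroExt.isUnit_inl_iff] at ha
      exact (residue_ne_zero_iff_isUnit a).mp ha.ne_zero
    · obtain ⟨y, rfl⟩ := residue_surjective x
      obtain ⟨a, ha⟩ := residue_surjective (R := 𝒪) y.fst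
      refine ⟨a, ?_⟩
      simp only [Function.comp_apply, h1, ha]
      rw [← sub_eq_zero, ← map_sub, residue_eq_zero_iff]
      rw [mem_maximalIdeal, mem_nonunits_iff, TrivSqZeroExt.isUnit_iff_isUnit_fst]
      simp
    · haveI : Finite (DualNumber (ResidueField 𝒪)) :=
        inferInstanceAs (Finite (ResidueField 𝒪 × ResidueField 𝒪))
      infer_instance
  haveI := tD.isLocalHom
  have hq : ∀ L : Λ, ∃ ρ : {ρ : GaloisRepAdic (DualNumber (ResidueField 𝒪)) //
      𝒟 ρ ∧ ρ.residual.IsEquiv (ρbar.baseChange (ResidueField (DualNumber (ResidueField 𝒪))))},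
      RepMat ρ.1.ρ (fun σ => (taut J σ).map (F L)) := by
    intro L
    have hg : Good 𝒟 fr (taut J) := ⟨hresJ, hnormJ, ρJ, hρJ, hDJ⟩
    obtain ⟨hres, -, ρ, hρ, hD⟩ := hg.map h𝒟 tB tD (F L)
    refine ⟨⟨ρ, hD, residual_isEquiv_of_repMat (repMat_residual hρ) ?_⟩, hρ⟩
    have := repMat_baseChange_residual (k' := ResidueField (DualNumber (ResidueField 𝒪))) fr.rep
    convert this using 2 with σ
    rw [hres σ]
    ext i j
    simp [h1, h2]
  choose Q hQ using hq
  have Qinj : Function.Injective (fun L => Quotient.mk s (Q L)) := by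
    intro L L' he
    have hequiv := hs _ _ (Quotient.exact he)
    obtain ⟨P, P', e1, e2, e3⟩ := ((hQ L).of_isEquiv hequiv).conjugate (hQ L')
    have hlD := fun φ : B →ₐ[𝒪] DualNumber (ResidueField 𝒪) =>
      isLocalHom_of_residue_surjective tD.residue_surjective φ
    have e := normalised_unique (hresJ.map (F L) (hlD _)) (hresJ.map (F L') (hlD _))
      (hnormJ.map (F L)) (hnormJ.map (F L')) e1 e2 e3
    have e' : F L' = F L := algHom_taut_ext fun σ => congrFun e σ
    apply Subtype.ext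
    ext x
    have := congrArg TrivSqZeroExt.snd ((hFx L' x).symm.trans ((AlgHom.congr_fun e' x).trans (hFx L x)))
    simpa using this.symm
  haveI hΛ : Finite Λ := Finite.of_injective _ Qinj
  haveI : Module.Finite (ResidueField 𝒪) B := Module.Finite.of_finite
  let b := Module.Free.chooseBasis (ResidueField 𝒪) B
  let βl : B →ₗ[ResidueField 𝒪] ResidueField 𝒪 :=
    { toFun := β
      map_add' := map_add β
      map_smul' := fun c x => by rw [Algebra.smul_def, map_mul, hβι]; rfl }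
  let g : Module.Dual (ResidueField 𝒪) B → Λ × ResidueField 𝒪 := fun L =>
    (⟨L - (L 1) • βl, by simp [βl]⟩, L 1)
  have hg : Function.Injective g := by
    intro L L' h
    have e2 := congrArg Prod.snd h
    have e1 := congrArg (fun p => p.1.1) h
    simp only [g] at e1 e2
    rw [e2] at e1
    exact sub_left_inj.mp e1
  calc Nat.card B = Nat.card (Module.Dual (ResidueField 𝒪) B) :=
        Nat.card_congr b.toDualEquiv.toEquiv
    _ ≤ Nat.card (Λ × ResidueField 𝒪) := Nat.card_le_card_of_injective g hg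
    _ = Nat.card Λ * Nat.card (ResidueField 𝒪) := Nat.card_prod _ _
    _ ≤ Nat.card (ResidueField 𝒪) * Nat.card (Quotient s) := by
        rw [mul_comm]
        exact Nat.mul_le_mul_left _ (Nat.card_le_card_of_injective _ Qinj)

theorem exists_tangent_bound [Finite (ResidueField 𝒪)] (h𝒟 : IsDeformationCondition 𝒪 𝒟)
    (hfin : TangentFinite 𝒪 ρbar 𝒟) (fr : Frame ρbar) :
    ∃ C : ℕ, ∀ J, OK 𝒟 fr J → ptIdeal fr ^ 2 ≤ J →
      (maximalIdeal 𝒪).map (algebraMap 𝒪 (Fr 𝒪)) ≤ J → Nat.card (Fr 𝒪 ⧸ J) ≤ C := by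
  letI : Algebra 𝒪 (DualNumber (ResidueField 𝒪)) :=
    ((algebraMap (ResidueField 𝒪) (DualNumber (ResidueField 𝒪))).comp
      (algebraMap 𝒪 (ResidueField 𝒪))).toAlgebra
  letI : Algebra (ResidueField 𝒪) (ResidueField (DualNumber (ResidueField 𝒪))) :=
    ((residue (DualNumber (ResidueField 𝒪))).comp
      (algebraMap (ResidueField 𝒪) (DualNumber (ResidueField 𝒪)))).toAlgebra
  let st : Setoid {ρ : GaloisRepAdic (DualNumber (ResidueField 𝒪)) //
      𝒟 ρ ∧ ρ.residual.IsEquiv (ρbar.baseChange (ResidueField (DualNumber (ResidueField 𝒪))))} :=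
    ⟨fun ρ ρ' => ρ.1.IsEquiv ρ'.1, ⟨fun ρ => ⟨GaloisRepAdic.Equiv.refl ρ.1⟩,
      fun ⟨e⟩ => ⟨e.symm⟩, fun ⟨e⟩ ⟨e'⟩ => ⟨e.trans e'⟩⟩⟩
  haveI : Finite (Quotient st) := hfin
  exact ⟨Nat.card (ResidueField 𝒪) * Nat.card (Quotient st), fun J hJ h1 h2 =>
    card_le_of_tangent h𝒟 fr (fun _ => rfl) (fun _ => rfl) st (fun _ _ h => h) hJ h1 h2⟩

end FLTAgent.Deform
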