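import Fermat.Agent.Deform.Ring
import Fermat.Prelude.Def_GaloisRep_DeformationRingData

set_option autoImplicit false

noncomputable section

namespace FLTAgent.Deform

open IsLocalRing GaloisRep

theorem conj_of_residual {k : Type} [CommRing k] {A : Type} [CommRing A] [IsLocalRing A]
    (f : k →+* ResidueField A) {c : GQ → Mt k} {r : GQ → Mt A} {P Q : Mt (ResidueField A)}
    (hQP : Q * P = 1) (hPQ : P * Q = 1)
    (h : ∀ σ, (c σ).map f = P * (r σ).map (residue A) * Q) :
    ∃ P' Q' : Mt A, Q' * P' = 1 ∧ P' * Q' = 1 ∧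
      ∀ σ, (P' * r σ * Q').map (residue A) = (c σ).map f := by
  classical
  choose p hp using fun i j => residue_surjective (P i j)
  let P' : Mt A := Matrix.of p
  have hP' : P'.map (residue A) = P := by ext i j; simp [P', hp]
  have hdet : IsUnit P'.det := (residue_ne_zero_iff_isUnit _).mp (by
    rw [RingHom.map_det, RingHom.mapMatrix_apply, hP']
    exact fun h0 => one_ne_zero (α := ResidueField A) (by
      have := congrArg Matrix.det hPQ; rw [Matrix.det_mul, h0, zero_mul, Matrix.det_one] at this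
      exact this.symm))
  refine ⟨P', P'⁻¹, Matrix.nonsing_inv_mul _ hdet, Matrix.mul_nonsing_inv _ hdet, fun σ => ?_⟩
  have hQ : (P'⁻¹).map (residue A) = Q := by
    have h1 : P * (P'⁻¹).map (residue A) = 1 := by
      rw [← hP', ← Matrix.map_mul, Matrix.mul_nonsing_inv _ hdet,
        Matrix.map_one _ (map_zero _) (map_one _)]
    calc (P'⁻¹).map (residue A) = (Q * P) * (P'⁻¹).map (residue A) := by rw [hQP, one_mul]
      _ = Q := by rw [mul_assoc, h1, mul_one]
  rw [Matrix.map_mul, Matrix.map_mul, hP', hQ, h σ]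

set_option maxHeartbeats 2000000 in
theorem exists_deformationRingData (𝒪 : Type) [CommRing 𝒪] [IsDomain 𝒪]
    [IsDiscreteValuationRing 𝒪] [IsAdicComplete (maximalIdeal 𝒪) 𝒪] [Finite (ResidueField 𝒪)]
    (ρbar : ResidualGaloisRep (ResidueField 𝒪))
    (𝒟 : ∀ ⦃A : Type⦄ [CommRing A] [IsLocalRing A] [Algebra 𝒪 A], GaloisRepAdic A → Prop)
    (habs : ρbar.IsAbsolutelyIrreducible) (h𝒟 : IsDeformationCondition 𝒪 𝒟)
    (hbar : 𝒟 (GaloisRepAdic.ofResidualGaloisRep ρbar)) (hfin : TangentFinite 𝒪 ρbar 𝒟) :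
    Nonempty (DeformationRingData 𝒪 ρbar 𝒟) := by
  classical
  obtain ⟨fr⟩ := exists_frame habs
  obtain ⟨T⟩ := exists_tower h𝒟 hbar hfin fr
  haveI hcompl := T.isAdicComplete_R h𝒟
  haveI hloc : IsLocalHom (algebraMap 𝒪 T.R) := T.isLocalHom_R
  haveI : ∀ n, Finite (Fr 𝒪 ⧸ T.I n) := fun n => (T.ok n).1
  haveI : ∀ n, IsLocalRing (Fr 𝒪 ⧸ T.I n) := fun n => (T.ok n).2.2.2.2.1
  have tI : ∀ n, IsArtinianTestAlgebra 𝒪 (Fr 𝒪 ⧸ T.I n) := fun n => isTest_quot (T.I_le n)
  -- universal matrices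
  choose u hu using fun σ i j => T.exists_lift h𝒟 (MvPolynomial.X (σ, i, j))
  let rU : GQ → Mt T.R := fun σ => Matrix.of (u σ)
  have hp : ∀ n σ, (rU σ).map (T.p n) = taut (T.I n) σ := fun n σ => by
    ext i j; simp [rU, taut, hu]
  have extp : ∀ {M N : Mt T.R}, (∀ n, M.map (T.p n) = N.map (T.p n)) → M = N := by
    intro M N h; ext i j
    exact T.eq_of_p fun n => congrFun (congrFun (h n) i) j
  choose ρn hρn hDn using fun n => (good_taut (T.ok n)).2.2
  have h1 : rU 1 = 1 := extp fun n => by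
    rw [hp, (hρn n).map_one, Matrix.map_one _ (map_zero _) (map_one _)]
  have hmul : ∀ σ τ, rU (σ * τ) = rU σ * rU τ := fun σ τ => extp fun n => by
    rw [hp, (hρn n).map_mul, ← hp, ← hp, Matrix.map_mul]
  have hcont : MatCont rU := by
    intro n
    obtain ⟨L, hL, h⟩ := (repMat_matCont (hρn n)).finLevel
    refine ⟨L, hL, fun σ hσ i j => ?_⟩
    refine Ideal.pow_le_pow_right n.le_succ ?_
    rw [← T.ker_p' h𝒟 n, RingHom.mem_ker, map_sub, sub_eq_zero]
    have e := congrFun (congrFun ((hp n σ).trans (h σ hσ)) i) j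
    rw [Matrix.map_apply] at e
    rw [e, ← Matrix.map_apply (f := T.p n), Matrix.map_one _ (map_zero _) (map_one _)]
  let ρU := ofMat rU h1 hmul hcont
  have hρU : RepMat ρU.ρ rU := repMat_ofMat _ _ _ _
  have hresU : Resid fr rU := by
    intro σ; ext i j
    simp only [Matrix.map_apply, Function.comp_apply]
    rw [← sub_eq_zero, ← map_sub, residue_eq_zero_iff, ← Submodule.pow_one (maximalIdeal T.R),
      ← T.ker_p' h𝒟 0, RingHom.mem_ker, map_sub, sub_eq_zero, AlgHom.commutes,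
      ← Matrix.map_apply (f := T.p 0), hp]
    refine Ideal.Quotient.eq.mpr (T.pow_le 0 ?_)
    rw [zero_add]
    refine (Submodule.pow_one (ptIdeal fr)).ge ?_
    rw [ptIdeal, RingHom.mem_ker, map_sub, AlgHom.commutes]
    simp [ev]
  have hnormU : Normalised fr rU := by
    have e : ∀ n, Normalised fr (fun σ => (rU σ).map (T.p n)) := fun n => by
      rw [show (fun σ => (rU σ).map (T.p n)) = taut (T.I n) from funext (hp n)]
      exact (good_taut (T.ok n)).2.1
    refine ⟨T.eq_of_p fun n => ?_, T.eq_of_p fun n => ?_, T.eq_of_p fun n => ?_⟩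
    · simpa [comb_map] using (e n).1
    · simpa [comb_map] using (e n).2.1
    · simpa [comb_map] using (e n).2.2
  have hRres := T.residue_surjective_R h𝒟
  haveI : IsNoetherianRing T.R := inferInstance
  have hD : 𝒟 ρU := by
    refine (h𝒟.iff_forall_surjective hloc hRres ρU).mpr fun B _ _ _ hB q hq hqs => ?_
    haveI := hB.isArtinian
    obtain ⟨N, hN⟩ := (isArtinianRing_iff_isNilpotent_maximalIdeal B).mp inferInstance
    have hk : RingHom.ker (T.p N) ≤ RingHom.ker q := by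
      rw [T.ker_p' h𝒟 N]
      intro x hx
      have hh : (maximalIdeal T.R).map (q : T.R →+* B) ≤ maximalIdeal B :=
        Ideal.map_le_iff_le_comap.mpr fun a ha => Ideal.mem_comap.mpr (map_nonunit (q : T.R →+* B) a ha)
      have h2 := Ideal.pow_right_mono hh (N + 1)
      rw [← Ideal.map_pow] at h2
      have h3 := Ideal.pow_le_pow_right N.le_succ (h2 (Ideal.mem_map_of_mem _ hx))
      rw [hN, Ideal.zero_eq_bot, Ideal.mem_bot] at h3
      exact h3
    let f : Fr 𝒪 ⧸ T.I N →ₐ[𝒪] B := AlgHom.liftOfSurjective (T.p N) (T.p_surjective N) q hk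
    have hf : ∀ x, f (T.p N x) = q x := fun x =>
      AlgHom.liftOfSurjective_apply (T.p N) (T.p_surjective N) q hk x
    obtain ⟨-, -, ρ', hρ', hD'⟩ := (good_taut (T.ok N)).map h𝒟 (tI N) hB f
    refine D_of_repMat h𝒟 hB hρ' ?_ hD'
    convert repMat_baseChangeAlong (q : T.R →+* B) hq hρU using 1
    funext σ; ext i j
    rw [← hp]; simp [hf]
  refine ⟨{ R := T.R
            residue_surjective := hRres
            absIrr := habs
            ρ := ρU
            isOfType := hD
            residual_isEquiv := ?_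
            universal := ?_ }⟩
  · refine residual_isEquiv_of_repMat (repMat_residual hρU) ?_
    convert repMat_baseChangeAlong_residual (ResidueField.map (algebraMap 𝒪 T.R)) fr.rep using 1
    funext σ
    rw [hresU σ]; ext i j; simp [ResidueField.map_residue]
  intro A _ _ _ _ _ _ hA ρA hDA heA
  obtain ⟨r₀, hr₀⟩ := exists_repMat ρA
  obtain ⟨e⟩ := heA
  obtain ⟨P, Q, hQP, hPQ, hc⟩ :=
    ((repMat_residual hr₀).linEquiv e.toLinearEquiv e.map_apply).conjugate
      (repMat_baseChangeAlong_residual (ResidueField.map (algebraMap 𝒪 A)) fr.rep)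
  obtain ⟨P₁, Q₁, hQP₁, hPQ₁, hc₁⟩ :=
    conj_of_residual (ResidueField.map (algebraMap 𝒪 A)) hQP hPQ hc
  have hr₁ : RepMat ρA.ρ (fun σ => P₁ * r₀ σ * Q₁) := hr₀.conj hQP₁ hPQ₁
  have hres₁ : Resid fr (fun σ => P₁ * r₀ σ * Q₁) := fun σ => by
    rw [hc₁ σ]; ext i j; simp [ResidueField.map_residue]
  haveI : HenselianRing A (maximalIdeal A) := inferInstance
  obtain ⟨P₂, Q₂, hQP₂, hPQ₂, hres₂, hnorm₂⟩ := exists_normalised hres₁
  set r := fun σ => P₂ * (P₁ * r₀ σ * Q₁) * Q₂ with hr_def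
  have hr : RepMat ρA.ρ r := hr₁.conj hQP₂ hPQ₂
  -- the finite levels
  let m := maximalIdeal A
  haveI hAloc : ∀ n, IsLocalRing (A ⧸ m ^ (n + 1)) := fun n => by
    haveI : Nontrivial (A ⧸ m ^ (n + 1)) := Ideal.Quotient.nontrivial_iff.mpr fun h =>
      IsLocalRing.maximalIdeal.isMaximal A |>.ne_top
        (top_le_iff.mp (h ▸ Ideal.pow_le_self n.succ_ne_zero))
    exact IsLocalRing.of_surjective' (Ideal.Quotient.mk _) Ideal.Quotient.mk_surjective
  have hq : ∀ n, IsLocalHom (Ideal.Quotient.mkₐ 𝒪 (m ^ (n + 1)) : A →+* A ⧸ m ^ (n + 1)) :=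
    fun n => ⟨fun a ha => by
      by_contra hu
      have hnil : (Ideal.Quotient.mk (m ^ (n + 1)) a) ^ (n + 1) = 0 := by
        rw [← map_pow]
        exact Ideal.Quotient.eq_zero_iff_mem.mpr (Ideal.pow_mem_pow hu _)
      exact (ha.pow (n + 1)).ne_zero hnil⟩
  have tA : ∀ n, IsArtinianTestAlgebra 𝒪 (A ⧸ m ^ (n + 1)) := fun n => by
    haveI := hq n
    refine ⟨⟨fun a ha => ?_⟩, fun x => ?_, ?_⟩
    · exact (IsUnit.of_map (algebraMap 𝒪 A) a
        ((hq n).map_nonunit (algebraMap 𝒪 A a) ha))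
    · obtain ⟨y, rfl⟩ := residue_surjective x
      obtain ⟨y, rfl⟩ := Ideal.Quotient.mk_surjective y
      obtain ⟨a, ha⟩ := hA (residue A y)
      refine ⟨a, ?_⟩
      have := congrArg (ResidueField.map (Ideal.Quotient.mkₐ 𝒪 (m ^ (n + 1)) : A →+* A ⧸ m ^ (n + 1))) ha
      simp only [Function.comp_apply, ResidueField.map_residue] at this
      exact this
    · haveI : Finite (ResidueField A) := Finite.of_surjective
        (ResidueField.map (algebraMap 𝒪 A)) fun x => by
          obtain ⟨a, ha⟩ := hA x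
          exact ⟨residue 𝒪 a, by rw [ResidueField.map_residue]; exact ha⟩
      haveI : Finite (A ⧸ m ^ (n + 1)) := finite_quotient_iff.mpr ⟨n + 1, le_rfl⟩
      infer_instance
  let rn : ∀ n, GQ → Mt (A ⧸ m ^ (n + 1)) := fun n σ =>
    (r σ).map (Ideal.Quotient.mkₐ 𝒪 (m ^ (n + 1)))
  have hgood : ∀ n, Good 𝒟 fr (rn n) := fun n =>
    ⟨hres₂.map _ (hq n), hnorm₂.map _, _, repMat_baseChangeAlong _ (hq n) hr,
      (h𝒟.iff_forall_surjective inferInstance hA ρA).mp hDA (tA n) _ (hq n)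
        Ideal.Quotient.mk_surjective⟩
  have hker : ∀ n, ∀ x ∈ T.I n, ev (rn n) x = 0 := by
    intro n
    haveI := (tA n).isLocalHom
    refine T.least n _ (ok_ker h𝒟 (tA n) (hgood n)) fun x hx => ?_
    have hh : (ptIdeal fr).map (ev (𝒪 := 𝒪) (rn n)) ≤ maximalIdeal (A ⧸ m ^ (n + 1)) :=
      Ideal.map_le_iff_le_comap.mpr fun y hy => (mem_maximalIdeal_ev_iff (hgood n).1 y).mpr hy
    have h2 := Ideal.pow_right_mono hh (n + 1)
    rw [← Ideal.map_pow] at h2
    have h3 := h2 (Ideal.mem_map_of_mem _ hx)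
    have hmm : maximalIdeal (A ⧸ m ^ (n + 1)) ≤ m.map (Ideal.Quotient.mk _) := fun y hy => by
      obtain ⟨y, rfl⟩ := Ideal.Quotient.mk_surjective y
      exact Ideal.mem_map_of_mem _ (fun hu => hy (hu.map _))
    have h4 := Ideal.pow_right_mono hmm (n + 1) h3
    rw [← Ideal.map_pow, Ideal.map_quotient_self, Ideal.mem_bot] at h4
    exact h4
  let f : ∀ n, T.R →ₐ[𝒪] A ⧸ m ^ (n + 1) := fun n =>
    (Ideal.Quotient.liftₐ (T.I n) (ev (rn n)) (hker n)).comp (T.p n)
  have hfU : ∀ n σ, (rU σ).map (f n) = rn n σ := fun n σ => by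
    ext i j
    show Ideal.Quotient.liftₐ (T.I n) (ev (rn n)) (hker n) (T.p n (rU σ i j)) = _
    rw [← Matrix.map_apply (f := T.p n), hp]
    have e : taut (T.I n) σ i j = Ideal.Quotient.mk (T.I n) (MvPolynomial.X (σ, i, j)) := by
      simp [taut]
    rw [e, Ideal.Quotient.liftₐ_apply]
    erw [Ideal.Quotient.lift_mk]
    show ev (rn n) (MvPolynomial.X (σ, i, j)) = rn n σ i j
    simp only [ev, MvPolynomial.aeval_X]
  -- two maps out of `T.R` killing a power of `m` agree as soon as they agree on `rU`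
  have key : ∀ n (g g' : T.R →ₐ[𝒪] A ⧸ m ^ (n + 1)), RingHom.ker (T.p n) ≤ RingHom.ker g →
      RingHom.ker (T.p n) ≤ RingHom.ker g' → (∀ σ, (rU σ).map g = (rU σ).map g') → g = g' := by
    intro n g g' hg hg' h
    have e : AlgHom.liftOfSurjective (T.p n) (T.p_surjective n) g hg =
        AlgHom.liftOfSurjective (T.p n) (T.p_surjective n) g' hg' := by
      refine algHom_taut_ext fun σ => ?_
      ext i j
      rw [← hp]
      simp only [Matrix.map_apply]
      rw [AlgHom.liftOfSurjective_apply (T.p n) (T.p_surjective n) g hg,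
        AlgHom.liftOfSurjective_apply (T.p n) (T.p_surjective n) g' hg']
      exact congrFun (congrFun (h σ) i) j
    refine AlgHom.ext fun x => ?_
    have := AlgHom.congr_fun e (T.p n x)
    rwa [AlgHom.liftOfSurjective_apply (T.p n) (T.p_surjective n) g hg,
      AlgHom.liftOfSurjective_apply (T.p n) (T.p_surjective n) g' hg'] at this
  have hkill : ∀ n (g : T.R →ₐ[𝒪] A ⧸ m ^ (n + 1)), RingHom.ker (T.p n) ≤ RingHom.ker g := by
    intro n g
    rw [T.ker_p' h𝒟 n]
    intro x hx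
    have hg := isLocalHom_of_residue_surjective (tA n).residue_surjective g
    have hh : (maximalIdeal T.R).map (g : T.R →+* A ⧸ m ^ (n + 1)) ≤
        m.map (Ideal.Quotient.mk _) := Ideal.map_le_iff_le_comap.mpr fun y hy => by
      obtain ⟨z, hz⟩ := Ideal.Quotient.mk_surjective ((g : T.R →+* A ⧸ m ^ (n + 1)) y)
      rw [Ideal.mem_comap, ← hz]
      exact Ideal.mem_map_of_mem _ fun hu => hy (hg.map_nonunit y (hz ▸ hu.map _))
    have h2 := Ideal.pow_right_mono hh (n + 1)
    rw [← Ideal.map_pow, ← Ideal.map_pow, Ideal.map_quotient_self] at h2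
    have h3 := h2 (Ideal.mem_map_of_mem _ hx)
    rwa [Ideal.mem_bot] at h3
  have hcompat : ∀ {a b : ℕ} (h : a ≤ b),
      (Ideal.Quotient.factorₐ 𝒪 (Ideal.pow_le_pow_right (Nat.succ_le_succ h))).comp (f b) = f a := by
    intro a b h
    refine key a _ _ (hkill a _) (hkill a _) fun σ => ?_
    rw [hfU a σ]
    ext i j
    have := congrFun (congrFun (hfU b σ) i) j
    simp only [Matrix.map_apply] at this
    simp [this, rn]
  let g : ∀ n, T.R →ₐ[𝒪] A ⧸ m ^ n := fun n =>
    (Ideal.Quotient.factorₐ 𝒪 (Ideal.pow_le_pow_right n.le_succ)).comp (f n)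
  have hgc : ∀ {a b : ℕ} (h : a ≤ b),
      (Ideal.Quotient.factorₐ 𝒪 (Ideal.pow_le_pow_right h)).comp (g b) = g a := by
    intro a b h
    ext x
    have := AlgHom.congr_fun (hcompat h) x
    simp only [g, AlgHom.comp_apply] at this ⊢
    rw [← this]
    obtain ⟨y, hy⟩ := Ideal.Quotient.mk_surjective (f b x)
    rw [← hy]
    rfl
  let φ : T.R →ₐ[𝒪] A := IsAdicComplete.liftAlgHom m g hgc
  have hφU : ∀ σ, (rU σ).map φ = r σ := by
    intro σ; ext i j
    refine (IsHausdorff.eq_iff_smodEq (I := m)).mpr fun n => ?_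
    rw [SModEq.sub_mem, smul_eq_mul, Ideal.mul_top, Matrix.map_apply, ← Ideal.Quotient.eq]
    show (Ideal.Quotient.mk (m ^ n)) (φ (rU σ i j)) = _
    rw [IsAdicComplete.mk_liftAlgHom]
    show Ideal.Quotient.factorₐ 𝒪 (Ideal.pow_le_pow_right (I := m) n.le_succ) (f n (rU σ i j)) = _
    rw [← Matrix.map_apply (f := f n), hfU]
    simp [rn]
  have hφ := isLocalHom_of_residue_surjective hA φ
  refine ⟨φ, ⟨hφ, IsEquiv.of_repMat ?_ hr⟩, ?_⟩
  · convert repMat_baseChangeAlong (φ : T.R →+* A) hφ hρU using 1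
    exact funext fun σ => (hφU σ).symm
  rintro φ' ⟨hφ', he⟩
  obtain ⟨P', Q', e1, e2, e3⟩ :=
    ((repMat_baseChangeAlong (φ' : T.R →+* A) hφ' hρU).of_isEquiv he).conjugate hr
  have e4 : r = fun σ => (rU σ).map (φ' : T.R →+* A) :=
    normalised_unique (hresU.map φ' hφ') hres₂ (hnormU.map φ') hnorm₂ e1 e2 e3
  refine IsAdicComplete.algHom_ext m fun n => ?_
  have : ((Ideal.Quotient.mkₐ 𝒪 (m ^ (n + 1))).comp φ') =
      (Ideal.Quotient.mkₐ 𝒪 (m ^ (n + 1))).comp φ := by
    refine key n _ _ (hkill n _) (hkill n _) fun σ => ?_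
    ext i j
    have e5 := congrFun (congrFun (congrFun e4 σ) i) j
    have e6 := congrFun (congrFun (hφU σ) i) j
    simp only [Matrix.map_apply] at e5 e6 ⊢
    simp only [AlgHom.comp_apply]
    rw [e6, e5]
    rfl
  refine AlgHom.ext fun x => ?_
  have hx := congrArg (Ideal.Quotient.factorₐ 𝒪 (Ideal.pow_le_pow_right (I := m) n.le_succ))
    (AlgHom.congr_fun this x)
  simpa using hx

end FLTAgent.Deform
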